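/-
Fermat/Agent/Jac/AbelJacobi73/Factor.lean  (helper73)

JAC programme, brick Q3 (Proper), part Q3c (algebra core), file 3:
* `exists_pointPair_factorisation`: over Dedekind charts every ideal pair with nonzero ideals is a
  finite product of point pairs (closures of closed points of one of the charts);
* `downTwistMulIso`: `L(-D)(-E) ≅ L(-(D+E))`;
* `ofIdealsMulIso`: `O(-(D+E)) ≅ O(-E)(-D)`.
-/
import Fermat.Agent.Jac.LineOps39.IdealSheaf

set_option autoImplicit false
set_option linter.unusedSectionVars false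
set_option linter.style.haveILetI false

universe u

open TensorProduct

namespace Fermat.Agent.Jac.AbelJacobi73

open Fermat.Agent.Jac Fermat.Agent.Jac.LineOps39

variable {A R0 R1 R01 : Type u} [CommRing A] [CommRing R0] [CommRing R1] [CommRing R01]
  [Algebra A R0] [Algebra A R1] [Algebra A R01] [Algebra R0 R01] [Algebra R1 R01]
  [IsScalarTower A R0 R01] [IsScalarTower A R1 R01]

section Factor

lemma idealPair_ext {D E : IdealPair R0 R1 R01} (h0 : D.I0 = E.I0) (h1 : D.I1 = E.I1) :
    D = E := by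
  cases D; cases E; simp_all

@[simp] lemma mul_I0 (D E : IdealPair R0 R1 R01) : (D.mul E).I0 = D.I0 * E.I0 := rfl
@[simp] lemma mul_I1 (D E : IdealPair R0 R1 R01) : (D.mul E).I1 = D.I1 * E.I1 := rfl
@[simp] lemma top_I0 : (IdealPair.top : IdealPair R0 R1 R01).I0 = ⊤ := rfl
@[simp] lemma top_I1 : (IdealPair.top : IdealPair R0 R1 R01).I1 = ⊤ := rfl

/-- The product of a list of ideal pairs (sum of divisors). -/
def pairProd (l : List (IdealPair R0 R1 R01)) : IdealPair R0 R1 R01 :=
  l.foldr IdealPair.mul IdealPair.top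

@[simp] lemma pairProd_nil : pairProd ([] : List (IdealPair R0 R1 R01)) = IdealPair.top := rfl
@[simp] lemma pairProd_cons (P : IdealPair R0 R1 R01) (l : List (IdealPair R0 R1 R01)) :
    pairProd (P :: l) = P.mul (pairProd l) := rfl

variable (c : TwoChart A R0 R1 R01)

/-- A point of the glued curve, as an ideal pair: the closure of a closed point of one of the
two charts. -/
def IsPointPair (P : IdealPair R0 R1 R01) : Prop :=
  (∃ m : Ideal R0, m.IsMaximal ∧ P = IdealPair.ofChart0 c m) ∨
    (∃ m : Ideal R1, m.IsMaximal ∧ P = IdealPair.ofChart1 c m)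

variable [IsDedekindDomain R0] [IsDedekindDomain R1] [IsDomain R01]

include c in
lemma isDedekindDomain_R01 : IsDedekindDomain R01 := by
  have := c.away0
  refine IsLocalization.isDedekindDomain R0 (M := Submonoid.powers c.t) ?_ R01
  rw [Submonoid.powers_le]
  refine mem_nonZeroDivisors_of_ne_zero ?_
  intro h
  have hu : IsUnit (algebraMap R0 R01 c.t) :=
    IsLocalization.map_units (M := Submonoid.powers c.t) R01 ⟨c.t, Submonoid.mem_powers _⟩
  rw [h, map_zero] at hu
  exact not_isUnit_zero hu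

include c in
lemma algebraMap_R0_injective : Function.Injective (algebraMap R0 R01) := by
  have := c.away0
  refine IsLocalization.injective (M := Submonoid.powers c.t) R01 ?_
  rw [Submonoid.powers_le]
  refine mem_nonZeroDivisors_of_ne_zero ?_
  intro h
  have hu : IsUnit (algebraMap R0 R01 c.t) :=
    IsLocalization.map_units (M := Submonoid.powers c.t) R01 ⟨c.t, Submonoid.mem_powers _⟩
  rw [h, map_zero] at hu
  exact not_isUnit_zero hu

include c in
lemma algebraMap_R1_injective : Function.Injective (algebraMap R1 R01) := by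
  have := c.away1
  refine IsLocalization.injective (M := Submonoid.powers c.s) R01 ?_
  rw [Submonoid.powers_le]
  refine mem_nonZeroDivisors_of_ne_zero ?_
  intro h
  have hu : IsUnit (algebraMap R1 R01 c.s) :=
    IsLocalization.map_units (M := Submonoid.powers c.s) R01 ⟨c.s, Submonoid.mem_powers _⟩
  rw [h, map_zero] at hu
  exact not_isUnit_zero hu

include c in
/-- Division of ideal pairs over Dedekind charts. -/
lemma exists_eq_mul_of_le (D P : IdealPair R0 R1 R01) (h0 : D.I0 ≤ P.I0) (h1 : D.I1 ≤ P.I1)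
    (hP : P.I0 ≠ ⊥) : ∃ E : IdealPair R0 R1 R01, D = P.mul E := by
  haveI := isDedekindDomain_R01 c
  obtain ⟨J0, hJ0⟩ := Ideal.dvd_iff_le.2 h0
  obtain ⟨J1, hJ1⟩ := Ideal.dvd_iff_le.2 h1
  have hP01 : P.I0.map (algebraMap R0 R01) ≠ ⊥ := by
    rwa [Ne, Ideal.map_eq_bot_iff_of_injective (algebraMap_R0_injective c)]
  have hc : J0.map (algebraMap R0 R01) = J1.map (algebraMap R1 R01) := by
    apply mul_left_cancel₀ hP01
    rw [← Ideal.map_mul, ← hJ0, D.compat, hJ1, Ideal.map_mul, P.compat]
  exact ⟨⟨J0, J1, hc⟩, idealPair_ext hJ0 hJ1⟩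

include c in
/-- **Factorisation into points**: over Dedekind charts every ideal pair with nonzero ideals is a
finite product of point pairs. -/
theorem exists_pointPair_factorisation (D : IdealPair R0 R1 R01) (h0 : D.I0 ≠ ⊥)
    (h1 : D.I1 ≠ ⊥) :
    ∃ l : List (IdealPair R0 R1 R01), (∀ P ∈ l, IsPointPair c P) ∧ D = pairProd l := by
  haveI := isDedekindDomain_R01 c
  suffices H : ∀ x : Ideal R0 × Ideal R1, ∀ D : IdealPair R0 R1 R01, (D.I0, D.I1) = x →
      D.I0 ≠ ⊥ → D.I1 ≠ ⊥ →
      ∃ l : List (IdealPair R0 R1 R01), (∀ P ∈ l, IsPointPair c P) ∧ D = pairProd l from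
    H _ D rfl h0 h1
  intro x
  induction x using WellFoundedGT.induction with
  | _ x ih =>
    rintro D rfl h0 h1
    by_cases hD0 : D.I0 = ⊤
    · by_cases hD1 : D.I1 = ⊤
      · exact ⟨[], by simp, idealPair_ext hD0 hD1⟩
      · obtain ⟨m, hm, hle⟩ := Ideal.exists_le_maximal _ hD1
        have hmtop : m.map (algebraMap R1 R01) = ⊤ := by
          rw [eq_top_iff, ← Ideal.map_top (algebraMap R0 R01), ← hD0, D.compat]
          exact Ideal.map_mono hle
        have hP0 : (IdealPair.ofChart1 c m).I0 = ⊤ := by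
          change (m.map (algebraMap R1 R01)).comap (algebraMap R0 R01) = ⊤
          rw [hmtop, Ideal.comap_top]
        obtain ⟨E, hE⟩ := exists_eq_mul_of_le c D (IdealPair.ofChart1 c m)
          (by rw [hP0]; exact le_top) hle (by rw [hP0]; exact top_ne_bot)
        have hE0 : E.I0 = ⊤ := by
          have := congrArg IdealPair.I0 hE
          rw [mul_I0, hP0, hD0, Ideal.top_mul] at this
          exact this.symm
        have hE1 : D.I1 = m * E.I1 := congrArg IdealPair.I1 hE
        have hE1ne : E.I1 ≠ ⊥ := by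
          rintro h
          rw [h, Ideal.mul_bot] at hE1
          exact h1 hE1
        have hlt : (D.I0, D.I1) < (E.I0, E.I1) := by
          rw [Prod.mk_lt_mk]
          right
          refine ⟨by rw [hD0, hE0], lt_of_le_of_ne ?_ ?_⟩
          · rw [hE1]; exact Ideal.mul_le_right
          · intro heq
            have hmne : m ≠ ⊤ := hm.ne_top
            apply hmne
            have h3 : m * E.I1 = ⊤ * E.I1 := by rw [Ideal.top_mul, ← hE1, heq]
            exact mul_right_cancel₀ hE1ne h3
        obtain ⟨l, hl, hEl⟩ := ih _ hlt E rfl (by rw [hE0]; exact top_ne_bot) hE1ne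
        refine ⟨IdealPair.ofChart1 c m :: l, ?_, by rw [pairProd_cons, ← hEl, hE]⟩
        intro P hP
        rcases List.mem_cons.1 hP with rfl | hP
        · exact Or.inr ⟨m, hm, rfl⟩
        · exact hl P hP
    · obtain ⟨m, hm, hle⟩ := Ideal.exists_le_maximal _ hD0
      have hmne : m ≠ ⊥ := fun h => h0 (le_bot_iff.1 (h ▸ hle))
      have hle1 : D.I1 ≤ (IdealPair.ofChart0 c m).I1 := by
        change D.I1 ≤ (m.map (algebraMap R0 R01)).comap (algebraMap R1 R01)
        rw [← Ideal.map_le_iff_le_comap, ← D.compat]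
        exact Ideal.map_mono hle
      obtain ⟨E, hE⟩ := exists_eq_mul_of_le c D (IdealPair.ofChart0 c m) hle hle1 hmne
      have hE0 : D.I0 = m * E.I0 := congrArg IdealPair.I0 hE
      have hE1 : D.I1 = (IdealPair.ofChart0 c m).I1 * E.I1 := congrArg IdealPair.I1 hE
      have hE0ne : E.I0 ≠ ⊥ := by
        rintro h
        rw [h, Ideal.mul_bot] at hE0
        exact h0 hE0
      have hE1ne : E.I1 ≠ ⊥ := by
        rintro h
        rw [h, Ideal.mul_bot] at hE1
        exact h1 hE1
      have hlt : (D.I0, D.I1) < (E.I0, E.I1) := by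
        rw [Prod.mk_lt_mk]
        left
        refine ⟨lt_of_le_of_ne ?_ ?_, ?_⟩
        · rw [hE0]; exact Ideal.mul_le_right
        · intro heq
          apply hm.ne_top
          have h3 : m * E.I0 = ⊤ * E.I0 := by rw [Ideal.top_mul, ← hE0, heq]
          exact mul_right_cancel₀ hE0ne h3
        · rw [hE1]; exact Ideal.mul_le_right
      obtain ⟨l, hl, hEl⟩ := ih _ hlt E rfl hE0ne hE1ne
      refine ⟨IdealPair.ofChart0 c m :: l, ?_, by rw [pairProd_cons, ← hEl, hE]⟩
      intro P hP
      rcases List.mem_cons.1 hP with rfl | hP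
      · exact Or.inl ⟨m, hm, rfl⟩
      · exact hl P hP

end Factor

section Mul

lemma map_subtype_smul_top {R N : Type*} [CommRing R] [AddCommGroup N] [Module R N]
    (p : Submodule R N) (J : Ideal R) :
    Submodule.map p.subtype (J • (⊤ : Submodule R p)) = J • p := by
  rw [Submodule.map_smul'', Submodule.map_top, Submodule.range_subtype]

/-- `J • (I • N) ≃ (I * J) • N`, as submodules. -/
noncomputable def smulSmulTopEquiv {R N : Type*} [CommRing R] [AddCommGroup N] [Module R N]
    (p : Submodule R N) (J : Ideal R) (q : Submodule R N) (h : J • p = q) :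
    ↥(J • (⊤ : Submodule R p)) ≃ₗ[R] ↥q :=
  (Submodule.equivSubtypeMap p (J • ⊤)).trans
    (LinearEquiv.ofEq _ _ ((map_subtype_smul_top p J).trans h))

@[simp] lemma smulSmulTopEquiv_coe {R N : Type*} [CommRing R] [AddCommGroup N] [Module R N]
    (p : Submodule R N) (J : Ideal R) (q : Submodule R N) (h : J • p = q)
    (x : ↥(J • (⊤ : Submodule R p))) : (smulSmulTopEquiv p J q h x : N) = ((x : p) : N) := rfl

variable (c : TwoChart A R0 R1 R01) (L : QC2 A R0 R1 R01)

lemma mul_I01 (D E : IdealPair R0 R1 R01) : (D.mul E).I01 = D.I01 * E.I01 :=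
  Ideal.map_mul _ _ _

/-- **Twisting down twice**: `L(-D)(-E) ≅ L(-(D+E))`. -/
noncomputable def downTwistMulIso (D E : IdealPair R0 R1 R01) :
    QC2.Iso (downTwist c (downTwist c L D) E) (downTwist c L (D.mul E)) where
  e0 := smulSmulTopEquiv (D.I0 • (⊤ : Submodule R0 L.N0)) E.I0 ((D.I0 * E.I0) • ⊤)
    (by rw [mul_comm, Submodule.mul_smul])
  e1 := smulSmulTopEquiv (D.I1 • (⊤ : Submodule R1 L.N1)) E.I1 ((D.I1 * E.I1) • ⊤)
    (by rw [mul_comm, Submodule.mul_smul])
  e01 := (LinearEquiv.ofEq _ _ (IdealPair.subPair_S01 c E (downTwist c L D))).trans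
    (smulSmulTopEquiv ((D.subPair c L).S01) E.I01 (((D.mul E).subPair c L).S01)
      (by rw [IdealPair.subPair_S01, IdealPair.subPair_S01, mul_I01, mul_comm,
        Submodule.mul_smul]))
  comm0 x := rfl
  comm1 x := rfl

end Mul

section OfIdealsMul

variable (c : TwoChart A R0 R1 R01)

/-- `O(-(D+E)) ≅ O(-E)(-D)`. -/
noncomputable def ofIdealsMulIso (D E : IdealPair R0 R1 R01) :
    QC2.Iso (downTwist c (ofIdeals c E) D) (ofIdeals c (D.mul E)) where
  e0 := smulSmulTopEquiv (E.I0 : Submodule R0 R0) D.I0 (D.I0 * E.I0 : Ideal R0) rfl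
  e1 := smulSmulTopEquiv (E.I1 : Submodule R1 R1) D.I1 (D.I1 * E.I1 : Ideal R1) rfl
  e01 := (LinearEquiv.ofEq _ _ (IdealPair.subPair_S01 c D (ofIdeals c E))).trans
    (smulSmulTopEquiv (E.I01 : Submodule R01 R01) D.I01 ((D.mul E).I01 : Ideal R01)
      (by rw [mul_I01]; rfl))
  comm0 x := rfl
  comm1 x := rfl

end OfIdealsMul

end Fermat.Agent.Jac.AbelJacobi73
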