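/-
Fermat/Agent/Jac/AbelJacobi73/ChiK.lean  (helper73)

JAC programme, brick Q3 (Proper), part Q3c (algebra core), file 4:
the Euler characteristic `chiK L = h⁰ - h¹` of a two-chart module over a field, its additivity
along `0 → L(-D) → L → L|_D → 0`, and `chiK (L(-X)) = chiK L - 1` for a rational point `X` (in
either chart).
-/
import Fermat.Agent.Jac.LineOps39.Point
import Fermat.Agent.Jac.Riemann4.SnakeLA

set_option autoImplicit false
set_option linter.unusedSectionVars false
set_option linter.style.haveILetI false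

universe u

open TensorProduct Module

namespace Fermat.Agent.Jac.AbelJacobi73

open Fermat.Agent.Jac Fermat.Agent.Jac.LineOps39

variable {K R0 R1 R01 : Type u} [Field K] [CommRing R0] [CommRing R1] [CommRing R01]
  [Algebra K R0] [Algebra K R1] [Algebra K R01] [Algebra R0 R01] [Algebra R1 R01]
  [IsScalarTower K R0 R01] [IsScalarTower K R1 R01]

section Chi

/-- The Euler characteristic `h⁰ - h¹` of a two-chart module over a field. -/
noncomputable def chiK (L : QC2 K R0 R1 R01) : ℤ :=
  (finrank K L.H0 : ℤ) - (finrank K L.H1 : ℤ)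

/-- Finite-dimensional cohomology. -/
structure FinCoh (L : QC2 K R0 R1 R01) : Prop where
  fin0 : FiniteDimensional K L.H0
  fin1 : FiniteDimensional K L.H1

lemma finCoh_of_iso {L M : QC2 K R0 R1 R01} (e : QC2.Iso L M) (h : FinCoh L) : FinCoh M := by
  haveI := h.fin0
  haveI := h.fin1
  exact ⟨(isoH0 e).finiteDimensional, (isoH1 e).finiteDimensional⟩

lemma chiK_of_iso {L M : QC2 K R0 R1 R01} (e : QC2.Iso L M) : chiK L = chiK M := by
  unfold chiK
  rw [(isoH0 e).finrank_eq, (isoH1 e).finrank_eq]

variable (c : TwoChart K R0 R1 R01) (L : QC2 K R0 R1 R01) (D : IdealPair R0 R1 R01)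

/-- **Additivity of the Euler characteristic** along `0 → L(-D) → L → L|_D → 0`, in the form
`h⁰(L(-D)) + h⁰(L|_D) + h¹(L) = h⁰(L) + h¹(L(-D)) + h¹(L|_D)`. -/
theorem finrank_downTwist_restrictTo [FiniteDimensional K L.H0] [FiniteDimensional K L.H1]
    [FiniteDimensional K (restrictTo c L D).H0] [FiniteDimensional K (downTwist c L D).H1] :
    finrank K (downTwist c L D).H0 + finrank K (restrictTo c L D).H0 + finrank K L.H1 =
      finrank K L.H0 + finrank K (downTwist c L D).H1 + finrank K (restrictTo c L D).H1 :=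
  haveI : FiniteDimensional K (LinearMap.ker L.d) := ‹FiniteDimensional K L.H0›
  haveI : FiniteDimensional K (LinearMap.ker (restrictTo c L D).d) :=
    ‹FiniteDimensional K (restrictTo c L D).H0›
  Riemann4.SnakeLA.finrank_ker_coker (downTwist c L D).d L.d (restrictTo c L D).d
    (homC0 (downTwistHom c L D)) (homC0 (restrictToHom c L D)) (exact_homC0 c L _)
    (homC1 (downTwistHom c L D)) (homC1 (restrictToHom c L D)) (exact_homC1 c L _)
    (homC1_comp_d _) (homC1_comp_d _) (homC0_subHom_injective c L _)
    (homC0_quotHom_surjective c L _) (homC1_subHom_injective c L _)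
    (homC1_quotHom_surjective c L _)

/-- A `K`-rational point of the glued curve, as an ideal pair. -/
def IsRatPointPair (X : IdealPair R0 R1 R01) : Prop :=
  (∃ m : Ideal R0, m.IsMaximal ∧ Function.Surjective (algebraMap K (R0 ⧸ m)) ∧
      X = IdealPair.ofChart0 c m) ∨
    (∃ m : Ideal R1, m.IsMaximal ∧ Function.Surjective (algebraMap K (R1 ⧸ m)) ∧
      X = IdealPair.ofChart1 c m)

lemma exists_sub_mem_of_surjective {R : Type u} [CommRing R] [Algebra K R] (m : Ideal R)
    (h : Function.Surjective (algebraMap K (R ⧸ m))) (x : R) :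
    ∃ a : K, x - algebraMap K R a ∈ m := by
  obtain ⟨a, ha⟩ := h (Ideal.Quotient.mk m x)
  refine ⟨a, ?_⟩
  rw [← Ideal.Quotient.eq, ← ha]
  rfl

/-- The skyscraper `L|_X` at a rational point has `h⁰ = 1` and `h¹ = 0`. -/
lemma restrictTo_ratPoint (hL : L.IsLine) (X : IdealPair R0 R1 R01) (hX : IsRatPointPair c X) :
    finrank K (restrictTo c L X).H0 = 1 ∧ finrank K (restrictTo c L X).H1 = 0 := by
  rcases hX with ⟨m, hm, hs, rfl⟩ | ⟨m, hm, hs, rfl⟩
  · obtain ⟨a, ha⟩ := exists_sub_mem_of_surjective m hs c.t
    haveI := hL.inv0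
    refine ⟨?_, ?_⟩
    · rw [(H0RestrictToOfChart0 c L m a ha).finrank_eq]
      exact finrank_quot_smul_top_eq_one m hs
    · haveI := subsingleton_H1_restrictTo_ofChart0 c L m a ha
      exact finrank_zero_of_subsingleton
  · obtain ⟨a, ha⟩ := exists_sub_mem_of_surjective m hs c.s
    haveI := hL.inv1
    refine ⟨?_, ?_⟩
    · rw [(H0RestrictToOfChart1 c L m a ha).finrank_eq]
      exact finrank_quot_smul_top_eq_one m hs
    · haveI := subsingleton_H1_restrictTo_ofChart1 c L m a ha
      exact finrank_zero_of_subsingleton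

/-- **Twisting down at a rational point lowers the Euler characteristic by one.** -/
theorem chiK_downTwist_ratPoint (hL : L.IsLine) (X : IdealPair R0 R1 R01)
    (hX : IsRatPointPair c X) (hfin : FinCoh L)
    (hfin' : FiniteDimensional K (downTwist c L X).H1) :
    chiK (downTwist c L X) = chiK L - 1 := by
  obtain ⟨h0, h1⟩ := restrictTo_ratPoint c L hL X hX
  haveI := hfin.fin0
  haveI := hfin.fin1
  haveI : FiniteDimensional K (restrictTo c L X).H0 :=
    Module.finite_of_finrank_pos (by rw [h0]; exact Nat.one_pos)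
  have key := finrank_downTwist_restrictTo c L X
  rw [h0, h1] at key
  unfold chiK
  omega

end Chi

end Fermat.Agent.Jac.AbelJacobi73
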