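/-
Fermat/Agent/Jac/AbelJacobi73/PicQ.lean  (helper73)

JAC programme, brick Q3 (Proper), part Q3c (algebra core), file 5:
the Picard group `PicQ c` of isomorphism classes of line two-chart modules (a commutative group
under `LineOps39.tensor`, inverse = `LineOps39.dual`), and the classes of ideal sheaves:
`[L(-D)] = [O(-D)] * [L]`, `[O(-(D+E))] = [O(-D)] * [O(-E)]`, `[O(D)] = [O(-D)]⁻¹`.
-/
import Fermat.Agent.Jac.LineOps39.IdealSheaf
import Fermat.Agent.Jac.AbelJacobi73.Effective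
import Fermat.Agent.Jac.AbelJacobi73.Factor

set_option autoImplicit false
set_option linter.unusedSectionVars false
set_option linter.style.haveILetI false
set_option linter.unusedVariables false

universe u

open TensorProduct

namespace Fermat.Agent.Jac.AbelJacobi73

open Fermat.Agent.Jac Fermat.Agent.Jac.LineOps39

variable {A R0 R1 R01 : Type u} [CommRing A] [CommRing R0] [CommRing R1] [CommRing R01]
  [Algebra A R0] [Algebra A R1] [Algebra A R01] [Algebra R0 R01] [Algebra R1 R01]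
  [IsScalarTower A R0 R01] [IsScalarTower A R1 R01]

/-- Line two-chart modules. -/
def LineQ (c : TwoChart A R0 R1 R01) : Type (u + 1) := {L : QC2 A R0 R1 R01 // L.IsLine}

/-- Isomorphism of line two-chart modules. -/
def lineSetoid (c : TwoChart A R0 R1 R01) : Setoid (LineQ c) where
  r L M := Nonempty (QC2.Iso L.1 M.1)
  iseqv := ⟨fun L => ⟨isoRefl L.1⟩, fun ⟨e⟩ => ⟨isoSymm e⟩, fun ⟨e⟩ ⟨f⟩ => ⟨isoTrans e f⟩⟩

/-- The Picard group of the glued curve: isomorphism classes of line two-chart modules. -/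
def PicQ (c : TwoChart A R0 R1 R01) : Type (u + 1) := Quotient (lineSetoid c)

variable (c : TwoChart A R0 R1 R01)

/-- The class of a line. -/
def PicQ.mk (L : QC2 A R0 R1 R01) (hL : L.IsLine) : PicQ c := Quotient.mk (lineSetoid c) ⟨L, hL⟩

lemma PicQ.mk_eq_mk_iff {L M : QC2 A R0 R1 R01} (hL : L.IsLine) (hM : M.IsLine) :
    PicQ.mk c L hL = PicQ.mk c M hM ↔ Nonempty (QC2.Iso L M) :=
  ⟨fun h => Quotient.exact h, fun h => Quotient.sound h⟩

lemma PicQ.mk_eq_of_iso {L M : QC2 A R0 R1 R01} (hL : L.IsLine) (hM : M.IsLine)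
    (e : QC2.Iso L M) : PicQ.mk c L hL = PicQ.mk c M hM :=
  (PicQ.mk_eq_mk_iff c hL hM).2 ⟨e⟩

lemma PicQ.exists_rep (ξ : PicQ c) : ∃ (L : QC2 A R0 R1 R01) (hL : L.IsLine), ξ = PicQ.mk c L hL := by
  induction ξ using Quotient.ind with
  | _ L => exact ⟨L.1, L.2, rfl⟩

noncomputable instance : Mul (PicQ c) where
  mul := Quotient.map₂ (fun L M => ⟨tensor L.1 M.1, isLine_tensor L.2 M.2⟩)
    (fun _ _ ⟨e⟩ _ _ ⟨f⟩ => ⟨tensorIso e f⟩)

instance : One (PicQ c) where
  one := PicQ.mk c QC2.unit isLine_unit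

noncomputable instance : Inv (PicQ c) where
  inv := Quotient.map (fun L => ⟨dual c L.1 (isVB_of_isLine L.2), isLine_dual c L.2⟩)
    (fun L M ⟨e⟩ => ⟨dualIso c (isoSymm e) (isVB_of_isLine M.2) (isVB_of_isLine L.2)⟩)

lemma PicQ.mk_mul_mk {L M : QC2 A R0 R1 R01} (hL : L.IsLine) (hM : M.IsLine) :
    PicQ.mk c L hL * PicQ.mk c M hM = PicQ.mk c (tensor L M) (isLine_tensor hL hM) := rfl

lemma PicQ.one_def : (1 : PicQ c) = PicQ.mk c QC2.unit isLine_unit := rfl

lemma PicQ.inv_mk {L : QC2 A R0 R1 R01} (hL : L.IsLine) :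
    (PicQ.mk c L hL)⁻¹ = PicQ.mk c (dual c L (isVB_of_isLine hL)) (isLine_dual c hL) := rfl

noncomputable instance : CommGroup (PicQ c) where
  mul_assoc ξ η ζ := by
    obtain ⟨L, hL, rfl⟩ := PicQ.exists_rep c ξ
    obtain ⟨M, hM, rfl⟩ := PicQ.exists_rep c η
    obtain ⟨N, hN, rfl⟩ := PicQ.exists_rep c ζ
    exact PicQ.mk_eq_of_iso c _ _ (tensorAssoc L M N)
  one_mul ξ := by
    obtain ⟨L, hL, rfl⟩ := PicQ.exists_rep c ξ
    exact PicQ.mk_eq_of_iso c _ _ (tensorUnitLeft L)
  mul_one ξ := by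
    obtain ⟨L, hL, rfl⟩ := PicQ.exists_rep c ξ
    exact PicQ.mk_eq_of_iso c _ _ (tensorUnitRight L)
  mul_comm ξ η := by
    obtain ⟨L, hL, rfl⟩ := PicQ.exists_rep c ξ
    obtain ⟨M, hM, rfl⟩ := PicQ.exists_rep c η
    exact PicQ.mk_eq_of_iso c _ _ (tensorComm L M)
  inv_mul_cancel ξ := by
    obtain ⟨L, hL, rfl⟩ := PicQ.exists_rep c ξ
    exact PicQ.mk_eq_of_iso c _ _ (dualTensorIso c L hL)


/-! ### Classes of ideal sheaves -/

section Ideals

variable [IsDedekindDomain R0] [IsDedekindDomain R1]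

/-- An ideal pair with nonzero ideals (an effective Cartier divisor on Dedekind charts). -/
structure PairNeBot (D : IdealPair R0 R1 R01) : Prop where
  ne0 : D.I0 ≠ ⊥
  ne1 : D.I1 ≠ ⊥

lemma PairNeBot.inv0 {D : IdealPair R0 R1 R01} (h : PairNeBot D) : Module.Invertible R0 D.I0 :=
  invertible_ideal_of_ne_bot _ h.ne0

lemma PairNeBot.inv1 {D : IdealPair R0 R1 R01} (h : PairNeBot D) : Module.Invertible R1 D.I1 :=
  invertible_ideal_of_ne_bot _ h.ne1

lemma PairNeBot.mul {D E : IdealPair R0 R1 R01} (hD : PairNeBot D) (hE : PairNeBot E) :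
    PairNeBot (D.mul E) :=
  ⟨mul_ne_zero hD.ne0 hE.ne0, mul_ne_zero hD.ne1 hE.ne1⟩

lemma pairNeBot_top : PairNeBot (IdealPair.top : IdealPair R0 R1 R01) :=
  ⟨top_ne_bot, top_ne_bot⟩

lemma PairNeBot.isLine_ofIdeals {D : IdealPair R0 R1 R01} (h : PairNeBot D) :
    (ofIdeals c D).IsLine :=
  LineOps39.isLine_ofIdeals c D h.inv0 h.inv1

lemma PairNeBot.isLine_downTwist {D : IdealPair R0 R1 R01} (h : PairNeBot D)
    {L : QC2 A R0 R1 R01} (hL : L.IsLine) : (downTwist c L D).IsLine :=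
  LineOps39.isLine_downTwist c hL D h.inv0 h.inv1

open Classical in
/-- The class of the ideal sheaf `O(-D)` in the Picard group (`1` if an ideal of `D` is zero). -/
noncomputable def idealCls (D : IdealPair R0 R1 R01) : PicQ c :=
  if h : PairNeBot D then PicQ.mk c (ofIdeals c D) (h.isLine_ofIdeals c) else 1

lemma idealCls_of_neBot {D : IdealPair R0 R1 R01} (h : PairNeBot D) :
    idealCls c D = PicQ.mk c (ofIdeals c D) (h.isLine_ofIdeals c) := by
  rw [idealCls, dif_pos h]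

/-- `[L(-D)] = [O(-D)] * [L]`. -/
lemma PicQ.mk_downTwist {L : QC2 A R0 R1 R01} (hL : L.IsLine) {D : IdealPair R0 R1 R01}
    (hD : PairNeBot D) :
    PicQ.mk c (downTwist c L D) (hD.isLine_downTwist c hL) = idealCls c D * PicQ.mk c L hL := by
  rw [idealCls_of_neBot c hD, PicQ.mk_mul_mk]
  exact (PicQ.mk_eq_of_iso c _ _ (tensorOfIdealsIso c D (isVB_of_isLine hL))).symm

/-- `[O(-(D+E))] = [O(-D)] * [O(-E)]`. -/
lemma idealCls_mul {D E : IdealPair R0 R1 R01} (hD : PairNeBot D) (hE : PairNeBot E) :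
    idealCls c (D.mul E) = idealCls c D * idealCls c E := by
  rw [idealCls_of_neBot c (hD.mul hE), idealCls_of_neBot c hE,
    ← PicQ.mk_downTwist c (hE.isLine_ofIdeals c) hD]
  exact (PicQ.mk_eq_of_iso c _ _ (ofIdealsMulIso c D E)).symm

/-- `[O(D)] = [O(-D)]⁻¹`. -/
lemma PicQ.mk_ofDivisor {D : IdealPair R0 R1 R01} (hD : PairNeBot D) :
    PicQ.mk c (ofDivisor c D (isVB_of_isLine (hD.isLine_ofIdeals c)))
      (isLine_dual c (hD.isLine_ofIdeals c)) = (idealCls c D)⁻¹ := by
  rw [idealCls_of_neBot c hD]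
  rfl

/-- The unit ideal pair has trivial class. -/
lemma idealCls_top : idealCls c (IdealPair.top : IdealPair R0 R1 R01) = 1 := by
  have h := idealCls_mul c (pairNeBot_top (R0 := R0) (R1 := R1) (R01 := R01)) pairNeBot_top
  have htt : (IdealPair.top : IdealPair R0 R1 R01).mul IdealPair.top = IdealPair.top :=
    idealPair_ext (by simp) (by simp)
  rw [htt] at h
  exact (mul_eq_left.1 h.symm)

lemma pairNeBot_pairProd {l : List (IdealPair R0 R1 R01)} (hl : ∀ X ∈ l, PairNeBot X) :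
    PairNeBot (pairProd l) := by
  induction l with
  | nil => exact pairNeBot_top
  | cons X l ih =>
    rw [pairProd_cons]
    exact (hl X List.mem_cons_self).mul (ih fun Y hY => hl Y (List.mem_cons_of_mem _ hY))

/-- The class of a product of ideal pairs is the product of the classes. -/
lemma idealCls_pairProd {l : List (IdealPair R0 R1 R01)} (hl : ∀ X ∈ l, PairNeBot X) :
    idealCls c (pairProd l) = (l.map (idealCls c)).prod := by
  induction l with
  | nil => simpa using idealCls_top c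
  | cons X l ih =>
    have hl' : ∀ Y ∈ l, PairNeBot Y := fun Y hY => hl Y (List.mem_cons_of_mem _ hY)
    rw [pairProd_cons, idealCls_mul c (hl X List.mem_cons_self) (pairNeBot_pairProd hl'),
      ih hl', List.map_cons, List.prod_cons]

end Ideals

end Fermat.Agent.Jac.AbelJacobi73
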