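/-
Fermat/Agent/Jac/AbelJacobi73/Riemann.lean  (helper73)

JAC programme, brick Q3 (Proper), part Q3c (algebra core), file 6: **the Abel-Jacobi map is
surjective on points**, in the language of two-chart modules over a field `K`.

Setting: Dedekind charts `R0`, `R1` (not fields) with domain overlap, all closed points
`K`-rational, finite-dimensional cohomology of line bundles (`CurveHyp`).  Then
* `exists_hasDeg`: the Euler characteristic defines a degree homomorphism on `PicQ c`
  (`chiQ (ξ * ζ) = chiQ ζ + deg ξ`);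
* `exists_effective`: a class with `chiQ ≥ 1` is the inverse of the class of an effective divisor,
  which is a sum of rational points;
* `exists_points_of_chiQ_eq`: every class `ξ` of degree zero is a product of exactly
  `g = h¹(O)` classes `[O(P0)] * [O(-X_i)] = [O(P0 - X_i)]`, `X_i` rational points.
-/
import Fermat.Agent.Jac.AbelJacobi73.PicQ
import Fermat.Agent.Jac.AbelJacobi73.ChiK

set_option autoImplicit false
set_option linter.unusedSectionVars false
set_option linter.style.haveILetI false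

universe u

open TensorProduct Module

namespace Fermat.Agent.Jac.AbelJacobi73

open Fermat.Agent.Jac Fermat.Agent.Jac.LineOps39

variable {K R0 R1 R01 : Type u} [Field K] [CommRing R0] [CommRing R1] [CommRing R01]
  [Algebra K R0] [Algebra K R1] [Algebra K R01] [Algebra R0 R01] [Algebra R1 R01]
  [IsScalarTower K R0 R01] [IsScalarTower K R1 R01]

variable (c : TwoChart K R0 R1 R01)

/-- The Euler characteristic on the Picard group. -/
noncomputable def chiQ : PicQ c → ℤ :=
  Quotient.lift (fun L : LineQ c => chiK L.1) (fun _ _ ⟨e⟩ => chiK_of_iso e)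

@[simp] lemma chiQ_mk (L : QC2 K R0 R1 R01) (hL : L.IsLine) : chiQ c (PicQ.mk c L hL) = chiK L :=
  rfl

/-- `ξ` shifts Euler characteristics by `d`. -/
def HasDeg (ξ : PicQ c) (d : ℤ) : Prop := ∀ ζ : PicQ c, chiQ c (ξ * ζ) = chiQ c ζ + d

lemma hasDeg_one : HasDeg c 1 0 := fun ζ => by rw [one_mul, add_zero]

lemma HasDeg.mul {ξ η : PicQ c} {d e : ℤ} (hξ : HasDeg c ξ d) (hη : HasDeg c η e) :
    HasDeg c (ξ * η) (d + e) := fun ζ => by
  rw [mul_assoc, hξ, hη]; ring

lemma HasDeg.inv {ξ : PicQ c} {d : ℤ} (hξ : HasDeg c ξ d) : HasDeg c ξ⁻¹ (-d) := fun ζ => by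
  have h := hξ (ξ⁻¹ * ζ)
  rw [mul_inv_cancel_left] at h
  rw [h]; ring

lemma HasDeg.pow {ξ : PicQ c} {d : ℤ} (hξ : HasDeg c ξ d) (n : ℕ) :
    HasDeg c (ξ ^ n) (n * d) := by
  induction n with
  | zero => simpa using hasDeg_one c
  | succ n ih =>
    rw [pow_succ]
    have := ih.mul c hξ
    convert this using 1
    push_cast; ring

lemma HasDeg.chiQ_eq {ξ : PicQ c} {d : ℤ} (hξ : HasDeg c ξ d) : chiQ c ξ = chiQ c 1 + d := by
  have := hξ 1
  rwa [mul_one] at this

variable [IsDedekindDomain R0] [IsDedekindDomain R1] [IsDomain R01]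

/-- Hypotheses on the two-chart ring of a curve over `K` (beyond Dedekind charts with domain
overlap): the charts are not fields, closed points are rational, cohomology of lines is
finite-dimensional. -/
structure CurveHyp (c : TwoChart K R0 R1 R01) : Prop where
  notField0 : ¬ IsField R0
  notField1 : ¬ IsField R1
  rat0 : ∀ m : Ideal R0, m.IsMaximal → Function.Surjective (algebraMap K (R0 ⧸ m))
  rat1 : ∀ m : Ideal R1, m.IsMaximal → Function.Surjective (algebraMap K (R1 ⧸ m))
  finCoh : ∀ L : QC2 K R0 R1 R01, L.IsLine → FinCoh L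

variable {c}

lemma CurveHyp.isRatPointPair (H : CurveHyp c) {X : IdealPair R0 R1 R01} (hX : IsPointPair c X) :
    IsRatPointPair c X := by
  rcases hX with ⟨m, hm, rfl⟩ | ⟨m, hm, rfl⟩
  · exact Or.inl ⟨m, hm, H.rat0 m hm, rfl⟩
  · exact Or.inr ⟨m, hm, H.rat1 m hm, rfl⟩

lemma isPointPair_of_isRatPointPair {X : IdealPair R0 R1 R01} (hX : IsRatPointPair c X) :
    IsPointPair c X := by
  rcases hX with ⟨m, hm, -, rfl⟩ | ⟨m, hm, -, rfl⟩
  · exact Or.inl ⟨m, hm, rfl⟩
  · exact Or.inr ⟨m, hm, rfl⟩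

lemma CurveHyp.pairNeBot (H : CurveHyp c) {X : IdealPair R0 R1 R01} (hX : IsPointPair c X) :
    PairNeBot X := by
  have hinj0 := algebraMap_R0_injective c
  have hinj1 := algebraMap_R1_injective c
  rcases hX with ⟨m, hm, rfl⟩ | ⟨m, hm, rfl⟩
  · have hm0 : m ≠ ⊥ := Ring.ne_bot_of_isMaximal_of_not_isField hm H.notField0
    refine ⟨hm0, fun h => ?_⟩
    have hc := (IdealPair.ofChart0 c m).compat
    rw [h, Ideal.map_bot] at hc
    exact hm0 ((Ideal.map_eq_bot_iff_of_injective hinj0).1 hc)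
  · have hm0 : m ≠ ⊥ := Ring.ne_bot_of_isMaximal_of_not_isField hm H.notField1
    refine ⟨fun h => ?_, hm0⟩
    have hc := (IdealPair.ofChart1 c m).compat
    rw [h, Ideal.map_bot] at hc
    exact hm0 ((Ideal.map_eq_bot_iff_of_injective hinj1).1 hc.symm)

/-- Twisting down by a rational point lowers the Euler characteristic by one. -/
lemma CurveHyp.hasDeg_idealCls (H : CurveHyp c) {X : IdealPair R0 R1 R01}
    (hX : IsRatPointPair c X) : HasDeg c (idealCls c X) (-1) := by
  intro ζ
  obtain ⟨L, hL, rfl⟩ := PicQ.exists_rep c ζ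
  have hne := H.pairNeBot (isPointPair_of_isRatPointPair hX)
  rw [← PicQ.mk_downTwist c hL hne, chiQ_mk, chiQ_mk]
  have hfin' := (H.finCoh _ (hne.isLine_downTwist c hL)).fin1
  rw [chiK_downTwist_ratPoint c L hL X hX (H.finCoh L hL) hfin']
  ring

lemma CurveHyp.hasDeg_prod (H : CurveHyp c) (l : List (IdealPair R0 R1 R01))
    (hl : ∀ X ∈ l, IsRatPointPair c X) :
    HasDeg c (l.map (idealCls c)).prod (-(l.length : ℤ)) := by
  induction l with
  | nil => simpa using hasDeg_one c
  | cons X l ih =>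
    rw [List.map_cons, List.prod_cons, List.length_cons]
    have := (H.hasDeg_idealCls (hl X List.mem_cons_self)).mul c
      (ih fun Y hY => hl Y (List.mem_cons_of_mem _ hY))
    convert this using 1
    push_cast; ring

/-- **Effectivity**: a class with positive Euler characteristic has a nonzero section, hence is
the inverse of the class of an effective divisor, a sum of rational points. -/
theorem CurveHyp.exists_effective (H : CurveHyp c) (η : PicQ c) (hη : 1 ≤ chiQ c η) :
    ∃ l : List (IdealPair R0 R1 R01), (∀ X ∈ l, IsRatPointPair c X) ∧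
      (l.map (idealCls c)).prod * η = 1 := by
  obtain ⟨M, hM, rfl⟩ := PicQ.exists_rep c η
  rw [chiQ_mk] at hη
  haveI := (H.finCoh M hM).fin0
  have hpos : 0 < finrank K M.H0 := by
    unfold chiK at hη
    omega
  obtain ⟨σ, hσ⟩ := Module.finrank_pos_iff_exists_ne_zero.1 hpos
  have hne : PairNeBot (sectionPair M hM σ) :=
    ⟨(sectionPair_ne_bot c M hM σ hσ).1, (sectionPair_ne_bot c M hM σ hσ).2⟩
  obtain ⟨l, hl, hZ⟩ := exists_pointPair_factorisation c (sectionPair M hM σ) hne.ne0 hne.ne1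
  refine ⟨l, fun X hX => H.isRatPointPair (hl X hX), ?_⟩
  rw [← idealCls_pairProd c (fun X hX => H.pairNeBot (hl X hX)), ← hZ,
    ← PicQ.mk_downTwist c hM hne, PicQ.one_def]
  exact (PicQ.mk_eq_of_iso c _ _ (sectionIso c M hM σ (section_fst_ne_zero c M hM σ hσ))).symm

/-- **The Euler characteristic is a degree homomorphism**: every class shifts Euler
characteristics by a constant. -/
theorem CurveHyp.exists_hasDeg (H : CurveHyp c) {P0 : IdealPair R0 R1 R01}
    (hP0 : IsRatPointPair c P0) (ξ : PicQ c) : ∃ d : ℤ, HasDeg c ξ d := by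
  have hp0 : HasDeg c (idealCls c P0)⁻¹ 1 := by
    simpa using (H.hasDeg_idealCls hP0).inv c
  set n : ℕ := (1 - chiQ c ξ).toNat with hn
  have hη : 1 ≤ chiQ c ((idealCls c P0)⁻¹ ^ n * ξ) := by
    rw [(hp0.pow c n) ξ]
    have : 1 - chiQ c ξ ≤ (n : ℤ) := Int.self_le_toNat _
    linarith
  obtain ⟨l, hl, hprod⟩ := H.exists_effective _ hη
  have hξ : ξ = ((l.map (idealCls c)).prod)⁻¹ * ((idealCls c P0)⁻¹ ^ n)⁻¹ := by
    rw [← mul_assoc] at hprod
    rw [← mul_inv, eq_inv_iff_mul_eq_one, mul_comm]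
    exact hprod
  rw [hξ]
  exact ⟨_, ((H.hasDeg_prod l hl).inv c).mul c ((hp0.pow c n).inv c)⟩

lemma list_prod_mul_pow {G : Type*} [CommGroup G] {α : Type*} (f : α → G) (a : G) (l : List α) :
    (l.map f).prod * a ^ l.length = (l.map fun x => a * f x).prod := by
  induction l with
  | nil => simp
  | cons x l ih =>
    rw [List.map_cons, List.prod_cons, List.length_cons, List.map_cons, List.prod_cons, ← ih,
      pow_succ]
    simp only [mul_assoc, mul_comm, mul_left_comm]

/-- `h⁰(O) ≥ 1`. -/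
lemma CurveHyp.finrank_H0_unit_pos (H : CurveHyp c) :
    0 < finrank K (QC2.unit : QC2 K R0 R1 R01).H0 := by
  haveI := (H.finCoh QC2.unit isLine_unit).fin0
  rw [Module.finrank_pos_iff_exists_ne_zero]
  refine ⟨⟨((1 : R0), (1 : R1)), ?_⟩, ?_⟩
  · change (QC2.unit : QC2 K R0 R1 R01).d ((1 : R0), (1 : R1)) = 0
    rw [LineOps39.d_apply]
    change algebraMap R0 R01 1 - algebraMap R1 R01 1 = 0
    rw [map_one, map_one, sub_self]
  · intro h
    have h1 : (1 : R0) = 0 := congrArg (fun x : (QC2.unit : QC2 K R0 R1 R01).H0 => x.1.1) h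
    exact one_ne_zero h1

/-- **Abel-Jacobi is surjective on points (algebraic form).**  Every class `ξ` of degree zero
(`chiQ ξ = chiQ 1`) is the product of exactly `g = h¹(O)` classes `[O(P0)] * [O(-X)] = [O(P0 - X)]`
of rational points `X`. -/
theorem CurveHyp.exists_points_of_chiQ_eq (H : CurveHyp c) {P0 : IdealPair R0 R1 R01}
    (hP0 : IsRatPointPair c P0) (ξ : PicQ c) (hξ : chiQ c ξ = chiQ c 1) :
    ∃ l : List (IdealPair R0 R1 R01),
      l.length = finrank K (QC2.unit : QC2 K R0 R1 R01).H1 ∧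
      (∀ X ∈ l, IsRatPointPair c X) ∧
      ξ = (l.map fun X => (idealCls c P0)⁻¹ * idealCls c X).prod := by
  set g := finrank K (QC2.unit : QC2 K R0 R1 R01).H1 with hg
  have hp0 : HasDeg c (idealCls c P0)⁻¹ 1 := by
    simpa using (H.hasDeg_idealCls hP0).inv c
  obtain ⟨d, hd⟩ := H.exists_hasDeg hP0 ξ
  have hd0 : d = 0 := by
    have := hd.chiQ_eq c
    linarith
  subst hd0
  have hinv : HasDeg c ξ⁻¹ 0 := by simpa using hd.inv c
  have hchi1 : chiQ c 1 = (finrank K (QC2.unit : QC2 K R0 R1 R01).H0 : ℤ) - g := rfl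
  have hpos := H.finrank_H0_unit_pos
  have hηchi : chiQ c ((idealCls c P0)⁻¹ ^ g * ξ⁻¹) = chiQ c 1 + g := by
    rw [(hp0.pow c g) ξ⁻¹, hinv.chiQ_eq c]
    ring
  have hη : 1 ≤ chiQ c ((idealCls c P0)⁻¹ ^ g * ξ⁻¹) := by
    rw [hηchi, hchi1]
    have : (1 : ℤ) ≤ finrank K (QC2.unit : QC2 K R0 R1 R01).H0 := by exact_mod_cast hpos
    linarith
  obtain ⟨l, hl, hprod⟩ := H.exists_effective _ hη
  have hlen : l.length = g := by
    have h1 := (H.hasDeg_prod l hl) ((idealCls c P0)⁻¹ ^ g * ξ⁻¹)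
    rw [hprod, hηchi] at h1
    have : (l.length : ℤ) = g := by linarith
    exact_mod_cast this
  refine ⟨l, hlen, hl, ?_⟩
  rw [← list_prod_mul_pow, hlen]
  rw [← mul_assoc, mul_inv_eq_one] at hprod
  rw [hprod]

end Fermat.Agent.Jac.AbelJacobi73
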