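/-
Programme JAC, brick Q3a (QC2 side), helper73: the point lines specialised to a curve with charts
`cc : CurveCharts c ε` (instances discharged with helper80's `CurveHyp80.Instance`):
`curveLine0/1 cc A x : cc.QCA A` (= `O(P0 - Γ_x)`), `IsLine`, `chi = chi0 cc`, `LiftData` under base
change, the tautological lines `tautLine0/1` over the charts, chart independence on the overlap,
triviality at the base point.  These are the inputs of the one-point family `F1` (helper81/helper40).
-/
import Fermat.Agent.Jac.AbelJacobi73.PointChi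
import Fermat.Agent.Jac.CurveHyp80.Instance
import Fermat.Agent.Jac.ChiDict36
import Fermat.Agent.Jac.CutAlg36
import Fermat.Agent.Jac.ChartFPL36

set_option autoImplicit false
set_option linter.unusedSectionVars false
set_option linter.style.haveILetI false

open CategoryTheory CategoryTheory.Limits AlgebraicGeometry TopologicalSpace Opposite
open NeronModelInfra TensorProduct

universe u

noncomputable section

namespace Fermat.Agent.Jac.AbelJacobi73

open Fermat.Agent.Jac Fermat.Agent.Jac.LineOps39 Fermat.Agent.Jac.JSmooth85Alg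
open scoped Fermat.Agent.Jac.BaseChange75

variable {k : Type u} [Field k] [IsAlgClosed k] {C : Scheme.{u}}
  {c : C ⟶ Spec (CommRingCat.of k)}
  {ε : SchemeHomOver (𝟙 (Spec (CommRingCat.of k))) c} (cc : CurveCharts c ε)

/-- The point line `O(P0 - Γ_x)` on `C_A` for an `A`-valued point `x` of the chart `U0` of the
curve. -/
def curveLine0 (A : Type u) [CommRing A] [Algebra k A] (x : cc.B0 →ₐ[k] A) : cc.QCA A :=
  haveI := CurveHyp80.isDedekindDomain_B0 cc
  haveI := CurveHyp80.isDedekindDomain_B1 cc
  haveI := CurveHyp80.finiteType_B0 cc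
  haveI := CurveHyp80.finiteType_B1 cc
  pointLine0 cc.chart0 (ChartFPL36.chart0_finiteProjOverLine cc) cc.P0 A x

/-- The point line `O(P0 - Γ_x)` on `C_A` for an `A`-valued point `x` of the chart `U1` of the
curve. -/
def curveLine1 (A : Type u) [CommRing A] [Algebra k A] (x : cc.B1 →ₐ[k] A) : cc.QCA A :=
  haveI := CurveHyp80.isDedekindDomain_B0 cc
  haveI := CurveHyp80.isDedekindDomain_B1 cc
  haveI := CurveHyp80.finiteType_B0 cc
  haveI := CurveHyp80.finiteType_B1 cc
  pointLine1 cc.chart0 (ChartFPL36.chart0_finiteProjOverLine cc) cc.P0 A x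

variable (A : Type u) [CommRing A] [Algebra k A]

theorem isLine_curveLine0 (x : cc.B0 →ₐ[k] A) : (curveLine0 cc A x).IsLine :=
  haveI := CurveHyp80.isDedekindDomain_B0 cc
  haveI := CurveHyp80.isDedekindDomain_B1 cc
  haveI := CurveHyp80.finiteType_B0 cc
  haveI := CurveHyp80.finiteType_B1 cc
  isLine_pointLine0 _ _ _ _ _

theorem isLine_curveLine1 (x : cc.B1 →ₐ[k] A) : (curveLine1 cc A x).IsLine :=
  haveI := CurveHyp80.isDedekindDomain_B0 cc
  haveI := CurveHyp80.isDedekindDomain_B1 cc
  haveI := CurveHyp80.finiteType_B0 cc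
  haveI := CurveHyp80.finiteType_B1 cc
  isLine_pointLine1 _ _ _ _ _

theorem chi_curveLine0 [IsIntegral C] (x : cc.B0 →ₐ[k] A) (p : PrimeSpectrum A) :
    (curveLine0 cc A x).chi p = ChiDict36.chi0 cc :=
  haveI := CurveHyp80.isDedekindDomain_B0 cc
  haveI := CurveHyp80.isDedekindDomain_B1 cc
  haveI := CurveHyp80.finiteType_B0 cc
  haveI := CurveHyp80.finiteType_B1 cc
  chi_pointLine0 _ _ _ _ (CutAlg36.hDom_of_isIntegral cc) _ _

theorem chi_curveLine1 [IsIntegral C] (x : cc.B1 →ₐ[k] A) (p : PrimeSpectrum A) :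
    (curveLine1 cc A x).chi p = ChiDict36.chi0 cc :=
  haveI := CurveHyp80.isDedekindDomain_B0 cc
  haveI := CurveHyp80.isDedekindDomain_B1 cc
  haveI := CurveHyp80.finiteType_B0 cc
  haveI := CurveHyp80.finiteType_B1 cc
  chi_pointLine1 _ _ _ _ (CutAlg36.hDom_of_isIntegral cc) _ _

variable {A}

/-- Base change of the point line along `A → A'` (chart 0). -/
def liftData_curveLine0 (A' : Type u) [CommRing A'] [Algebra k A'] [Algebra A A']
    [IsScalarTower k A A'] (x : cc.B0 →ₐ[k] A) :
    LiftData (curveLine0 cc A x) (curveLine0 cc A' ((IsScalarTower.toAlgHom k A A').comp x)) :=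
  haveI := CurveHyp80.isDedekindDomain_B0 cc
  haveI := CurveHyp80.isDedekindDomain_B1 cc
  haveI := CurveHyp80.finiteType_B0 cc
  haveI := CurveHyp80.finiteType_B1 cc
  liftData_pointLine0 _ _ _ _ _

/-- Base change of the point line along `A → A'` (chart 1). -/
def liftData_curveLine1 (A' : Type u) [CommRing A'] [Algebra k A'] [Algebra A A']
    [IsScalarTower k A A'] (x : cc.B1 →ₐ[k] A) :
    LiftData (curveLine1 cc A x) (curveLine1 cc A' ((IsScalarTower.toAlgHom k A A').comp x)) :=
  haveI := CurveHyp80.isDedekindDomain_B0 cc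
  haveI := CurveHyp80.isDedekindDomain_B1 cc
  haveI := CurveHyp80.finiteType_B0 cc
  haveI := CurveHyp80.finiteType_B1 cc
  liftData_pointLine1 _ _ _ _ _

/-- The tautological line over the chart `U0 = Spec B0`. -/
def tautLine0 : cc.QCA cc.B0 := curveLine0 cc cc.B0 (AlgHom.id k cc.B0)

/-- The tautological line over the chart `U1 = Spec B1`. -/
def tautLine1 : cc.QCA cc.B1 := curveLine1 cc cc.B1 (AlgHom.id k cc.B1)

/-- Base change of the tautological line to any `B0`-algebra `A'`: the point line of the
structure morphism `B0 → A'`. -/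
def liftData_tautLine0 (A' : Type u) [CommRing A'] [Algebra k A'] [Algebra cc.B0 A']
    [IsScalarTower k cc.B0 A'] :
    LiftData (tautLine0 cc) (curveLine0 cc A' (IsScalarTower.toAlgHom k cc.B0 A')) :=
  liftData_curveLine0 cc A' (AlgHom.id k cc.B0)

/-- Base change of the tautological line to any `B1`-algebra `A'`. -/
def liftData_tautLine1 (A' : Type u) [CommRing A'] [Algebra k A'] [Algebra cc.B1 A']
    [IsScalarTower k cc.B1 A'] :
    LiftData (tautLine1 cc) (curveLine1 cc A' (IsScalarTower.toAlgHom k cc.B1 A')) :=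
  liftData_curveLine1 cc A' (AlgHom.id k cc.B1)

/-- **Chart independence on the overlap.** -/
theorem curveLine0_eq_curveLine1_overlap :
    curveLine0 cc cc.B01 (IsScalarTower.toAlgHom k cc.B0 cc.B01) =
      curveLine1 cc cc.B01 (IsScalarTower.toAlgHom k cc.B1 cc.B01) :=
  haveI := CurveHyp80.isDedekindDomain_B0 cc
  haveI := CurveHyp80.isDedekindDomain_B1 cc
  haveI := CurveHyp80.finiteType_B0 cc
  haveI := CurveHyp80.finiteType_B1 cc
  pointLine0_eq_pointLine1 cc.chart0 (ChartFPL36.chart0_finiteProjOverLine cc) cc.P0 cc.B01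
    (AlgHom.id k cc.B01)

/-- At the base point, the point line is trivial. -/
def curveLine1_base (A : Type u) [CommRing A] [Algebra k A] :
    QC2.Iso (curveLine1 cc A (constPt A cc.P0)) QC2.unit :=
  haveI := CurveHyp80.isDedekindDomain_B0 cc
  haveI := CurveHyp80.isDedekindDomain_B1 cc
  haveI := CurveHyp80.finiteType_B0 cc
  haveI := CurveHyp80.finiteType_B1 cc
  pointLine1_base _ _ _ _

end Fermat.Agent.Jac.AbelJacobi73
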