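/-
Fermat/Agent/Jac/AbelJacobi73/PowerFamily.lean  (helper73)

JAC programme, brick Q3 (properness via the Abel-Jacobi family), formal part Q3b.

Inputs: a class-level group law `Γ : ClassGroupLaw P` on affine test schemes (brick Q2) and a
*one-point* family `F1 : ClassFamily P c` on the curve itself (`x ↦ [O(Γ_x - P0)]`, brick Q3a).
Output: the product family on the fibre power `C^g` (`(x_1..x_g) ↦ ∏ [O(x_i - P0)]`), and the
reduction of the "hits every class over `Spec k`" hypothesis of
`PointsBridge79Shell.smooth_isProper_geometricallyConnected` to: every class over `Spec k` is a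
product of `g` one-point classes (brick Q3c: Riemann + Dedekind factorisation).
-/
import Mathlib
import Fermat.Agent.Jac.PointsBridge79Shell
import Fermat.Agent.Jac.QShell79Power

set_option autoImplicit false

noncomputable section

universe u

open CategoryTheory CategoryTheory.Limits AlgebraicGeometry AlgebraicGeometry.RelPicard
  NeronModelInfra GoodReductionJacobian

namespace Fermat.Agent.Jac.AbelJacobi73

open PointsBridge79 PointsBridge79Shell QShell79Power

variable {R : Type u} [CommRing R] {C : Scheme.{u}} {c : C ⟶ Spec (CommRingCat.of R)}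
  {ε : SchemeHomOver (𝟙 (Spec (CommRingCat.of R))) c} {P : SubPicCondition c ε}

/-! ### Transport of classes along equalities of structure morphisms -/

/-- Transport of a class along an equality of structure morphisms. -/
def castClass {T : Scheme.{u}} {t t' : T ⟶ Spec (CommRingCat.of R)} (h : t = t')
    (ξ : PClass P t) : PClass P t' :=
  h ▸ ξ

@[simp]
theorem castClass_rfl {T : Scheme.{u}} {t : T ⟶ Spec (CommRingCat.of R)} (ξ : PClass P t) :
    castClass (rfl : t = t) ξ = ξ := rfl

theorem castClass_castClass {T : Scheme.{u}} {t t' t'' : T ⟶ Spec (CommRingCat.of R)}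
    (h : t = t') (h' : t' = t'') (ξ : PClass P t) :
    castClass h' (castClass h ξ) = castClass (h.trans h') ξ := by
  subst h; subst h'; rfl

theorem map_castClass {T T' : Scheme.{u}} {t t₁ : T ⟶ Spec (CommRingCat.of R)}
    {t' : T' ⟶ Spec (CommRingCat.of R)} (h : t = t₁) (ψ : T' ⟶ T) (hψ : ψ ≫ t₁ = t')
    (ξ : PClass P t) :
    PClass.map P (⟨ψ, hψ⟩ : SchemeHomOver t' t₁) (castClass h ξ) =
      PClass.map P (⟨ψ, by rw [h, hψ]⟩ : SchemeHomOver t' t) ξ := by
  subst h; rfl

theorem castClass_map {T T' : Scheme.{u}} {t : T ⟶ Spec (CommRingCat.of R)}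
    {t' t'₁ : T' ⟶ Spec (CommRingCat.of R)} (h : t' = t'₁) (ψ : T' ⟶ T) (hψ : ψ ≫ t = t')
    (ξ : PClass P t) :
    castClass h (PClass.map P (⟨ψ, hψ⟩ : SchemeHomOver t' t) ξ) =
      PClass.map P (⟨ψ, hψ.trans h⟩ : SchemeHomOver t'₁ t) ξ := by
  subst h; rfl

/-- Pulling back along the identity is a transport. -/
theorem map_id_eq_castClass {T : Scheme.{u}} {t t' : T ⟶ Spec (CommRingCat.of R)}
    (h : 𝟙 T ≫ t = t') (ξ : PClass P t) :
    PClass.map P (⟨𝟙 T, h⟩ : SchemeHomOver t' t) ξ =
      castClass ((Category.id_comp t).symm.trans h) ξ := by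
  obtain rfl : t = t' := (Category.id_comp t).symm.trans h
  exact PClass.map_id P ξ

/-- Two-step pullback of classes, in terms of the underlying morphisms. -/
theorem map_map' {T T' T'' : Scheme.{u}} {t : T ⟶ Spec (CommRingCat.of R)}
    {t' : T' ⟶ Spec (CommRingCat.of R)} {t'' : T'' ⟶ Spec (CommRingCat.of R)}
    (φ : T' ⟶ T) (hφ : φ ≫ t = t') (ψ : T'' ⟶ T') (hψ : ψ ≫ t' = t'') (ξ : PClass P t) :
    PClass.map P (⟨ψ, hψ⟩ : SchemeHomOver t'' t')
        (PClass.map P (⟨φ, hφ⟩ : SchemeHomOver t' t) ξ) =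
      PClass.map P (⟨ψ ≫ φ, by rw [Category.assoc, hφ, hψ]⟩ : SchemeHomOver t'' t) ξ := by
  rw [PClass.map_map]
  rfl

/-! ### Group-theoretic consequences of `ClassGroupLaw` -/

section Group

variable (Γ : ClassGroupLaw P)

theorem mul_left_cancel' {B : CommRingCat.{u}} (t : Spec B ⟶ Spec (CommRingCat.of R))
    {x y z : PClass P t} (h : Γ.mul t x y = Γ.mul t x z) : y = z := by
  have h1 := congrArg (Γ.mul t (Γ.inv t x)) h
  rwa [← Γ.mul_assoc, ← Γ.mul_assoc, Γ.inv_mul_cancel, Γ.one_mul, Γ.one_mul] at h1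

theorem eq_one_of_mul_self {B : CommRingCat.{u}} (t : Spec B ⟶ Spec (CommRingCat.of R))
    {x : PClass P t} (h : Γ.mul t x x = x) : x = Γ.one t := by
  apply mul_left_cancel' Γ t (x := x)
  rw [h, Γ.mul_one]

/-- Pullback of classes along a morphism of affine test schemes preserves the unit class. -/
theorem map_one {B B' : CommRingCat.{u}} (t : Spec B ⟶ Spec (CommRingCat.of R))
    (t' : Spec B' ⟶ Spec (CommRingCat.of R)) (φ : B ⟶ B') (hφ : Spec.map φ ≫ t = t') :
    PClass.map P (⟨Spec.map φ, hφ⟩ : SchemeHomOver t' t) (Γ.one t) = Γ.one t' := by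
  apply eq_one_of_mul_self Γ t'
  rw [← Γ.map_mul t t' φ hφ, Γ.one_mul]

/-- Transport is multiplicative. -/
theorem castClass_mul {B : CommRingCat.{u}} {t t' : Spec B ⟶ Spec (CommRingCat.of R)}
    (h : t = t') (x y : PClass P t) :
    castClass h (Γ.mul t x y) = Γ.mul t' (castClass h x) (castClass h y) := by
  subst h; rfl

theorem castClass_one {B : CommRingCat.{u}} {t t' : Spec B ⟶ Spec (CommRingCat.of R)}
    (h : t = t') : castClass h (Γ.one t) = Γ.one t' := by
  subst h; rfl

end Group

/-! ### Operations on families of classes -/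

section Family

variable {X Y : Scheme.{u}} {p : X ⟶ Spec (CommRingCat.of R)} {q : Y ⟶ Spec (CommRingCat.of R)}

/-- The class of a family at an affine point, with a prescribed structure morphism. -/
def clsAt (F : ClassFamily P p) (B : CommRingCat.{u}) (ψ : Spec B ⟶ X)
    (t : Spec B ⟶ Spec (CommRingCat.of R)) (ht : ψ ≫ p = t) : PClass P t :=
  castClass ht (F.cls B ψ)

theorem clsAt_natural (F : ClassFamily P p) (B B' : CommRingCat.{u}) (φ : B ⟶ B')
    (ψ : Spec B ⟶ X) (t : Spec B ⟶ Spec (CommRingCat.of R)) (ht : ψ ≫ p = t)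
    (t' : Spec B' ⟶ Spec (CommRingCat.of R)) (hφ : Spec.map φ ≫ t = t') :
    PClass.map P (⟨Spec.map φ, hφ⟩ : SchemeHomOver t' t) (clsAt F B ψ t ht) =
      clsAt F B' (Spec.map φ ≫ ψ) t' (by rw [Category.assoc, ht, hφ]) := by
  subst ht
  subst hφ
  have := F.natural B B' φ ψ
  unfold clsAt
  rw [castClass_rfl, ← this]
  rfl

/-- Pullback of a family along a morphism over the base. -/
def ClassFamily.comap (F : ClassFamily P p) (f : Y ⟶ X) (hf : f ≫ p = q) : ClassFamily P q where
  cls B ψ := clsAt F B (ψ ≫ f) (ψ ≫ q) (by rw [Category.assoc, hf])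
  natural B B' φ ψ := by
    rw [clsAt_natural F B B' φ (ψ ≫ f) (ψ ≫ q) _ ((Spec.map φ ≫ ψ) ≫ q)
      (Category.assoc _ _ _).symm]
    rfl

/-- Pointwise product of two families. -/
def ClassFamily.mul (Γ : ClassGroupLaw P) (F G : ClassFamily P p) : ClassFamily P p where
  cls B ψ := Γ.mul (ψ ≫ p) (F.cls B ψ) (G.cls B ψ)
  natural B B' φ ψ := by
    rw [Γ.map_mul (ψ ≫ p) ((Spec.map φ ≫ ψ) ≫ p) φ (Category.assoc _ _ _).symm, F.natural,
      G.natural]

/-- The unit family. -/
def ClassFamily.one (Γ : ClassGroupLaw P) (p : X ⟶ Spec (CommRingCat.of R)) :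
    ClassFamily P p where
  cls _ ψ := Γ.one (ψ ≫ p)
  natural _ _ φ ψ := map_one Γ (ψ ≫ p) ((Spec.map φ ≫ ψ) ≫ p) φ (Category.assoc _ _ _).symm

theorem clsAt_mul (Γ : ClassGroupLaw P) (F G : ClassFamily P p) (B : CommRingCat.{u})
    (ψ : Spec B ⟶ X) (t : Spec B ⟶ Spec (CommRingCat.of R)) (ht : ψ ≫ p = t) :
    clsAt (ClassFamily.mul Γ F G) B ψ t ht = Γ.mul t (clsAt F B ψ t ht) (clsAt G B ψ t ht) := by
  subst ht; rfl

theorem clsAt_one (Γ : ClassGroupLaw P) (B : CommRingCat.{u})
    (ψ : Spec B ⟶ X) (t : Spec B ⟶ Spec (CommRingCat.of R)) (ht : ψ ≫ p = t) :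
    clsAt (ClassFamily.one Γ p) B ψ t ht = Γ.one t := by
  subst ht; rfl

theorem clsAt_comap (F : ClassFamily P p) (f : Y ⟶ X) (hf : f ≫ p = q) (B : CommRingCat.{u})
    (ψ : Spec B ⟶ Y) (t : Spec B ⟶ Spec (CommRingCat.of R)) (ht : ψ ≫ q = t) :
    clsAt (ClassFamily.comap F f hf) B ψ t ht =
      clsAt F B (ψ ≫ f) t (by rw [Category.assoc, hf, ht]) := by
  subst ht; rfl

end Family

/-! ### The product family on the fibre powers of the curve -/

section Power

variable (Γ : ClassGroupLaw P) (F1 : ClassFamily P c)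

/-- The product family `(x_1, …, x_g) ↦ ∏ F1(x_i)` on the `g`-fold fibre power of the curve. -/
def powerFamily : ∀ g : ℕ, ClassFamily P (fibrePower c g).hom
  | 0 => ClassFamily.one Γ (fibrePower c 0).hom
  | g + 1 =>
    ClassFamily.mul Γ
      (ClassFamily.comap F1 (fibrePowerHead c g) (fibrePowerHead_comp c g))
      (ClassFamily.comap (powerFamily g) (fibrePowerTail c g) (fibrePowerTail_comp c g))

/-- `ξ` is a product of `g` classes of the one-point family at rational points. -/
def IsProductOfPoints : ℕ → PClass P (𝟙 (Spec (CommRingCat.of R))) → Prop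
  | 0 => fun ξ => ξ = Γ.one (𝟙 (Spec (CommRingCat.of R)))
  | g + 1 => fun ξ => ∃ (x : SchemeHomOver (𝟙 (Spec (CommRingCat.of R))) c)
      (ξ' : PClass P (𝟙 (Spec (CommRingCat.of R)))), IsProductOfPoints g ξ' ∧
      ξ = Γ.mul (𝟙 (Spec (CommRingCat.of R)))
        (clsAt F1 (CommRingCat.of R) x.1 (𝟙 (Spec (CommRingCat.of R))) x.2) ξ'

/-- A product of `g` one-point classes is the value of the product family at a rational point of
the fibre power. -/
theorem exists_point_of_isProductOfPoints (g : ℕ) (ξ : PClass P (𝟙 (Spec (CommRingCat.of R))))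
    (hξ : IsProductOfPoints Γ F1 g ξ) :
    ∃ z : SchemeHomOver (𝟙 (Spec (CommRingCat.of R))) (fibrePower c g).hom,
      clsAt (powerFamily Γ F1 g) (CommRingCat.of R) z.1 (𝟙 (Spec (CommRingCat.of R))) z.2 = ξ := by
  induction g generalizing ξ with
  | zero =>
    refine ⟨⟨𝟙 _, Category.id_comp _⟩, ?_⟩
    rw [hξ]
    exact clsAt_one Γ _ _ _ _
  | succ g ih =>
    obtain ⟨x, ξ', hξ', rfl⟩ := hξ
    obtain ⟨z', hz'⟩ := ih ξ' hξ'
    have hcond : x.1 ≫ c = z'.1 ≫ (fibrePower c g).hom := by rw [x.2, z'.2]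
    refine ⟨⟨pullback.lift x.1 z'.1 hcond, ?_⟩, ?_⟩
    · change pullback.lift x.1 z'.1 hcond ≫ (pullback.fst c (fibrePower c g).hom ≫ c) = _
      rw [pullback.lift_fst_assoc, x.2]
    · change clsAt (ClassFamily.mul Γ _ _) _ _ _ _ = _
      rw [clsAt_mul, clsAt_comap, clsAt_comap]
      congr 1
      · congr 1
        exact pullback.lift_fst _ _ _
      · rw [← hz']
        congr 1
        exact pullback.lift_snd _ _ _

/-- **Q3b.** If every class over `Spec k` in the cut is a product of `g` one-point classes, the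
product family on `C^g` hits every class over `Spec k` (the hypothesis `hF` of
`PointsBridge79Shell.smooth_isProper_geometricallyConnected`). -/
theorem powerFamily_hits (g : ℕ)
    (H : ∀ ξ : PClass P (𝟙 (Spec (CommRingCat.of R))), IsProductOfPoints Γ F1 g ξ)
    (ξ : PClass P (𝟙 (Spec (CommRingCat.of R)))) :
    ∃ z : SchemeHomOver (𝟙 (Spec (CommRingCat.of R))) (fibrePower c g).hom,
      (powerFamily Γ F1 g).cls (CommRingCat.of R) z.1 =
        PClass.map P (⟨𝟙 _, by rw [Category.id_comp, z.2]⟩ :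
          SchemeHomOver (z.1 ≫ (fibrePower c g).hom) (𝟙 (Spec (CommRingCat.of R)))) ξ := by
  obtain ⟨z, hz⟩ := exists_point_of_isProductOfPoints Γ F1 g ξ (H ξ)
  refine ⟨z, ?_⟩
  rw [map_id_eq_castClass, ← hz]
  unfold clsAt
  rw [castClass_castClass]
  rfl

end Power

/-! ### Final assembly of the Layer-4 properties from the one-point family -/

section Final

variable {k : Type u} [Field k] [IsAlgClosed k] {C : Scheme.{u}}
  {c : C ⟶ Spec (CommRingCat.of k)} {ε : SchemeHomOver (𝟙 (Spec (CommRingCat.of k))) c}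
  {P : SubPicCondition c ε} {D : RelativePic0Designation k c}

/-- **Q3/Q4 shell.** Smooth, proper and geometrically connected from: a class-level group law,
class-level infinitesimal lifting, a one-point family on the (proper, irreducible) curve, and the
fact that every class over `Spec k` is a product of `g` one-point classes. -/
theorem smooth_isProper_geometricallyConnected_of_onePointFamily
    (h : RepresentsRelSubPic c ε P D) [LocallyOfFiniteType D.toBase] [IsProper c]
    [IrreducibleSpace C] (Γ : ClassGroupLaw P) (hl : ClassLifting P) (F1 : ClassFamily P c)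
    (g : ℕ) (H : ∀ ξ : PClass P (𝟙 (Spec (CommRingCat.of k))), IsProductOfPoints Γ F1 g ξ) :
    Smooth D.toBase ∧ IsProper D.toBase ∧ GeometricallyConnected D.toBase := by
  have : IrreducibleSpace (fibrePower c g).left := fibrePower_irreducibleSpace c g
  exact PointsBridge79Shell.smooth_isProper_geometricallyConnected h Γ hl (fibrePower c g).hom
    (powerFamily Γ F1 g) (powerFamily_hits Γ F1 g H)

end Final

end Fermat.Agent.Jac.AbelJacobi73

end
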