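/-
Programme JAC, brick Q3a, helper73: the tautological point lines over the charts specialise at a
`k`-point `φ : B_j →ₐ[k] k` to the point line of `φ`, in helper85's `JGroup85Eval.LiftDataAt` form
(input of `JGroup85Eval.lineClassPt_clsAt_ofBundle`).
-/
import Fermat.Agent.Jac.AbelJacobi73.CurveLines
import Fermat.Agent.Jac.JGroup85EvalCurve

set_option autoImplicit false
set_option linter.unusedSectionVars false
set_option linter.style.haveILetI false

open CategoryTheory CategoryTheory.Limits AlgebraicGeometry TopologicalSpace Opposite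
open NeronModelInfra TensorProduct

universe u

noncomputable section

namespace Fermat.Agent.Jac.AbelJacobi73

open Fermat.Agent.Jac Fermat.Agent.Jac.LineOps39 Fermat.Agent.Jac.JSmooth85Alg
open scoped Fermat.Agent.Jac.BaseChange75

variable {k : Type u} [Field k] [IsAlgClosed k] {C : Scheme.{u}}
  {c : C ⟶ Spec (CommRingCat.of k)}
  {ε : SchemeHomOver (𝟙 (Spec (CommRingCat.of k))) c} (cc : CurveCharts c ε)

/-- The tautological line over `U0` specialises at a `k`-point `φ : B0 → k` to the point line of
`φ` (in helper85's `LiftDataAt` form). -/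
def liftDataAt_tautLine0 (φ : cc.B0 →ₐ[k] k) :
    JGroup85Eval.LiftDataAt cc φ (tautLine0 cc) (curveLine0 cc k φ) := by
  letI : Algebra cc.B0 k := φ.toRingHom.toAlgebra
  haveI : IsScalarTower k cc.B0 k :=
    IsScalarTower.of_algebraMap_eq (fun a => (φ.commutes a).symm)
  have h : IsScalarTower.toAlgHom k cc.B0 k = φ := AlgHom.ext fun _ => rfl
  have key := liftData_tautLine0 cc k
  rw [h] at key
  exact key

/-- The tautological line over `U1` specialises at a `k`-point `φ : B1 → k` to the point line of
`φ`. -/
def liftDataAt_tautLine1 (φ : cc.B1 →ₐ[k] k) :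
    JGroup85Eval.LiftDataAt cc φ (tautLine1 cc) (curveLine1 cc k φ) := by
  letI : Algebra cc.B1 k := φ.toRingHom.toAlgebra
  haveI : IsScalarTower k cc.B1 k :=
    IsScalarTower.of_algebraMap_eq (fun a => (φ.commutes a).symm)
  have h : IsScalarTower.toAlgHom k cc.B1 k = φ := AlgHom.ext fun _ => rfl
  have key := liftData_tautLine1 cc k
  rw [h] at key
  exact key

end Fermat.Agent.Jac.AbelJacobi73
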