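/-
Programme JAC, brick Q3a (QC2 side), helper73: graph ideals of `A`-valued points of the charts.

For a `k`-algebra `A` and an `A`-valued point `x : B →ₐ[k] A` of an affine chart `Spec B`, the
graph of `x` in `Spec (A ⊗ B)` is cut out by `graphIdeal A x = ker (A ⊗ B → A)`.  We prove its
description by generators, base change `A → A'`, contraction along localizations `B → B'`, and
chart independence of the associated ideal pair.
-/
import Fermat.Agent.Jac.BaseChange75.Rings
import Fermat.Agent.Jac.LineOps39.IdealSheaf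

set_option autoImplicit false
set_option linter.unusedSectionVars false
set_option linter.style.haveILetI false

universe u

open TensorProduct

namespace Fermat.Agent.Jac.AbelJacobi73

open Fermat.Agent.Jac Fermat.Agent.Jac.LineOps39
open scoped Fermat.Agent.Jac.BaseChange75

section GraphIdeal

variable {k : Type u} [CommRing k] {B : Type u} [CommRing B] [Algebra k B]
  (A : Type u) [CommRing A] [Algebra k A]

/-- Evaluation at an `A`-valued point `x` of `Spec B`: `A ⊗ B → A`, `a ⊗ b ↦ a * x b`. -/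
def evalAt (x : B →ₐ[k] A) : A ⊗[k] B →ₐ[A] A :=
  Algebra.TensorProduct.lift (AlgHom.id A A) x (fun _ _ => Commute.all _ _)

@[simp] lemma evalAt_tmul (x : B →ₐ[k] A) (a : A) (b : B) : evalAt A x (a ⊗ₜ[k] b) = a * x b := by
  simp [evalAt]

lemma evalAt_surjective (x : B →ₐ[k] A) : Function.Surjective (evalAt A x) := fun a =>
  ⟨a ⊗ₜ 1, by simp⟩

/-- The ideal of the graph of an `A`-valued point of `Spec B` in `Spec (A ⊗ B)`. -/
def graphIdeal (x : B →ₐ[k] A) : Ideal (A ⊗[k] B) := RingHom.ker (evalAt A x)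

lemma mem_graphIdeal {x : B →ₐ[k] A} {z : A ⊗[k] B} : z ∈ graphIdeal A x ↔ evalAt A x z = 0 :=
  Iff.rfl

lemma one_tmul_sub_mem_graphIdeal (x : B →ₐ[k] A) (b : B) :
    (1 : A) ⊗ₜ[k] b - x b ⊗ₜ[k] (1 : B) ∈ graphIdeal A x := by
  rw [mem_graphIdeal, map_sub, evalAt_tmul, evalAt_tmul, map_one, one_mul, mul_one, sub_self]

/-- `z ≡ x̃(z) ⊗ 1` modulo the graph ideal. -/
lemma sub_evalAt_tmul_one_mem (x : B →ₐ[k] A) (z : A ⊗[k] B) :
    z - evalAt A x z ⊗ₜ[k] (1 : B) ∈ graphIdeal A x := by
  rw [mem_graphIdeal, map_sub, evalAt_tmul, map_one, mul_one, sub_self]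

/-- The graph ideal is generated by the elements `1 ⊗ b - x b ⊗ 1`. -/
lemma graphIdeal_eq_span (x : B →ₐ[k] A) :
    graphIdeal A x = Ideal.span (Set.range fun b : B => (1 : A) ⊗ₜ[k] b - x b ⊗ₜ[k] (1 : B)) := by
  apply le_antisymm
  · intro z hz
    rw [mem_graphIdeal] at hz
    have key : ∀ z : A ⊗[k] B, z - evalAt A x z ⊗ₜ[k] (1 : B) ∈
        Ideal.span (Set.range fun b : B => (1 : A) ⊗ₜ[k] b - x b ⊗ₜ[k] (1 : B)) := by
      intro z
      induction z using TensorProduct.induction_on with
      | zero => simp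
      | tmul a b =>
        have h : a ⊗ₜ[k] b - evalAt A x (a ⊗ₜ[k] b) ⊗ₜ[k] (1 : B) =
            (a ⊗ₜ[k] (1 : B)) * ((1 : A) ⊗ₜ[k] b - x b ⊗ₜ[k] (1 : B)) := by
          rw [evalAt_tmul, mul_sub, Algebra.TensorProduct.tmul_mul_tmul,
            Algebra.TensorProduct.tmul_mul_tmul, mul_one, one_mul, mul_one]
        rw [h]
        exact Ideal.mul_mem_left _ _ (Ideal.subset_span ⟨b, rfl⟩)
      | add z w hz hw =>
        have h : z + w - evalAt A x (z + w) ⊗ₜ[k] (1 : B) =
            (z - evalAt A x z ⊗ₜ[k] (1 : B)) + (w - evalAt A x w ⊗ₜ[k] (1 : B)) := by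
          rw [map_add, TensorProduct.add_tmul]; abel
        rw [h]
        exact Ideal.add_mem _ hz hw
    have := key z
    rwa [hz, TensorProduct.zero_tmul, sub_zero] at this
  · rw [Ideal.span_le]
    rintro _ ⟨b, rfl⟩
    exact one_tmul_sub_mem_graphIdeal A x b

variable {A}

/-- Base change of graph ideals: the graph ideal of the composite point is the extension. -/
lemma graphIdeal_map (A' : Type u) [CommRing A'] [Algebra k A'] [Algebra A A']
    [IsScalarTower k A A'] (x : B →ₐ[k] A) :
    (graphIdeal A x).map (algebraMap (A ⊗[k] B) (A' ⊗[k] B)) =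
      graphIdeal A' ((IsScalarTower.toAlgHom k A A').comp x) := by
  rw [graphIdeal_eq_span, graphIdeal_eq_span, Ideal.map_span]
  congr 1
  ext z
  constructor
  · rintro ⟨_, ⟨b, rfl⟩, rfl⟩
    refine ⟨b, ?_⟩
    simp
  · rintro ⟨b, rfl⟩
    refine ⟨_, ⟨b, rfl⟩, ?_⟩
    simp

end GraphIdeal

end Fermat.Agent.Jac.AbelJacobi73

namespace Fermat.Agent.Jac.AbelJacobi73

open Fermat.Agent.Jac Fermat.Agent.Jac.LineOps39
open scoped Fermat.Agent.Jac.BaseChange75

section GraphPair

variable {k B0 B1 B01 : Type u} [CommRing k] [CommRing B0] [CommRing B1] [CommRing B01]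
  [Algebra k B0] [Algebra k B1] [Algebra k B01] [Algebra B0 B01] [Algebra B1 B01]
  [IsScalarTower k B0 B01] [IsScalarTower k B1 B01]
  (c0 : TwoChart k B0 B1 B01) (A : Type u) [CommRing A] [Algebra k A]

/-- The graph of an `A`-valued point of chart 0, as an ideal pair on the curve over `A`. -/
def graphPair0 (x : B0 →ₐ[k] A) : IdealPair (A ⊗[k] B0) (A ⊗[k] B1) (A ⊗[k] B01) :=
  IdealPair.ofChart0 (c0.baseChange A) (graphIdeal A x)

/-- The graph of an `A`-valued point of chart 1, as an ideal pair on the curve over `A`. -/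
def graphPair1 (x : B1 →ₐ[k] A) : IdealPair (A ⊗[k] B0) (A ⊗[k] B1) (A ⊗[k] B01) :=
  IdealPair.ofChart1 (c0.baseChange A) (graphIdeal A x)

lemma evalAt_comp_algebraMap {B B' : Type u} [CommRing B] [CommRing B'] [Algebra k B]
    [Algebra k B'] [Algebra B B'] [IsScalarTower k B B'] (x : B' →ₐ[k] A) (z : A ⊗[k] B) :
    evalAt A x (algebraMap (A ⊗[k] B) (A ⊗[k] B') z) =
      evalAt A (x.comp (IsScalarTower.toAlgHom k B B')) z := by
  induction z using TensorProduct.induction_on with
  | zero => simp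
  | tmul a b => simp
  | add z w hz hw => rw [map_add, map_add, map_add, hz, hw]

/-- The graph ideal of a point of a localization contracts to the graph ideal of the point. -/
lemma graphIdeal_comap {B B' : Type u} [CommRing B] [CommRing B'] [Algebra k B]
    [Algebra k B'] [Algebra B B'] [IsScalarTower k B B'] (x : B' →ₐ[k] A) :
    (graphIdeal A x).comap (algebraMap (A ⊗[k] B) (A ⊗[k] B')) =
      graphIdeal A (x.comp (IsScalarTower.toAlgHom k B B')) := by
  ext z
  rw [Ideal.mem_comap, mem_graphIdeal, mem_graphIdeal, evalAt_comp_algebraMap]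

/-- **Chart independence**: an `A`-valued point of the overlap has the same graph, seen from
chart 0 or from chart 1. -/
theorem graphPair0_eq_graphPair1 (x : B01 →ₐ[k] A) :
    graphPair0 c0 A (x.comp (IsScalarTower.toAlgHom k B0 B01)) =
      graphPair1 c0 A (x.comp (IsScalarTower.toAlgHom k B1 B01)) := by
  have h0 := (c0.baseChange A).away0
  have h1 := (c0.baseChange A).away1
  have e0 : (graphIdeal A (x.comp (IsScalarTower.toAlgHom k B0 B01))).map
      (algebraMap (A ⊗[k] B0) (A ⊗[k] B01)) = graphIdeal A x := by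
    rw [← graphIdeal_comap]
    exact IsLocalization.map_under (Submonoid.powers (c0.baseChange A).t) _ _
  have e1 : (graphIdeal A (x.comp (IsScalarTower.toAlgHom k B1 B01))).map
      (algebraMap (A ⊗[k] B1) (A ⊗[k] B01)) = graphIdeal A x := by
    rw [← graphIdeal_comap]
    exact IsLocalization.map_under (Submonoid.powers (c0.baseChange A).s) _ _
  unfold graphPair0 graphPair1 IdealPair.ofChart0 IdealPair.ofChart1
  congr 1
  · rw [e1, graphIdeal_comap]
  · rw [e0, graphIdeal_comap]

end GraphPair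

end Fermat.Agent.Jac.AbelJacobi73
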