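/-
Programme JAC, brick Q3a (QC2 side), helper73: base change of ideal sheaves `O(-D)`.

`liftDataOfIdeals`: if the ideals of `D'` are the extensions of those of `D` and everything is
invertible, then `ofIdeals c' D'` is the chartwise base change of `ofIdeals c D`.
`ofChart0_I1_map` / `ofChart1_I0_map`: the closure of a closed subscheme of one chart which is
finite over the base commutes with base change.
-/
import Fermat.Agent.Jac.LineOps39.IdealSheaf
import Fermat.Agent.Jac.JSmooth85Alg

set_option autoImplicit false
set_option linter.unusedSectionVars false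
set_option linter.style.haveILetI false

universe u

open TensorProduct

namespace Fermat.Agent.Jac.AbelJacobi73

open Fermat.Agent.Jac Fermat.Agent.Jac.LineOps39 Fermat.Agent.Jac.JSmooth85Alg

section InvIdeal

variable {R R' : Type*} [CommRing R] [CommRing R'] [Algebra R R']

/-- The multiplication map `R' ⊗[R] I → I R'` for an ideal `I` of `R`. -/
noncomputable def idealMulMap (I : Ideal R) : R' ⊗[R] I →ₗ[R'] (I.map (algebraMap R R')) :=
  LinearMap.codRestrict (Submodule.restrictScalars R' (I.map (algebraMap R R')))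
    (LinearMap.liftBaseChange R' ((Algebra.linearMap R R') ∘ₗ (Submodule.subtype I)))
    (fun z => by
      induction z using TensorProduct.induction_on with
      | zero => simp
      | tmul s a =>
        simp only [LinearMap.liftBaseChange_tmul, LinearMap.coe_comp, Submodule.coe_subtype,
          Function.comp_apply, Algebra.linearMap_apply, smul_eq_mul]
        exact Ideal.mul_mem_left _ _ (Ideal.mem_map_of_mem _ a.2)
      | add z z' hz hz' =>
        rw [map_add]
        exact Submodule.add_mem _ hz hz')

@[simp] lemma idealMulMap_tmul (I : Ideal R) (s : R') (n : I) :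
    ((idealMulMap (R' := R') I (s ⊗ₜ[R] n) : I.map (algebraMap R R')) : R') =
      s * algebraMap R R' (n : R) := by
  change LinearMap.liftBaseChange R' ((Algebra.linearMap R R') ∘ₗ (Submodule.subtype I))
    (s ⊗ₜ[R] n) = _
  simp

lemma idealMulMap_surjective (I : Ideal R) : Function.Surjective (idealMulMap (R' := R') I) := by
  rintro ⟨y, hy⟩
  have : y ∈ Submodule.map (Submodule.subtype (I.map (algebraMap R R')))
      (LinearMap.range (idealMulMap (R' := R') I)) := by
    refine Submodule.span_induction (p := fun y _ => y ∈ Submodule.map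
      (Submodule.subtype (I.map (algebraMap R R'))) (LinearMap.range (idealMulMap (R' := R') I)))
      ?_ ?_ ?_ ?_ hy
    · rintro _ ⟨a, ha, rfl⟩
      exact ⟨_, ⟨(1 : R') ⊗ₜ[R] (⟨a, ha⟩ : I), rfl⟩, by simp⟩
    · exact Submodule.zero_mem _
    · intro x y _ _ hx hy
      exact Submodule.add_mem _ hx hy
    · intro a x _ hx
      exact Submodule.smul_mem _ a hx
  obtain ⟨_, ⟨z, rfl⟩, hz⟩ := this
  exact ⟨z, Subtype.ext hz⟩

/-- For an invertible ideal `I` whose extension `I R'` is again an invertible module,
`R' ⊗[R] I ≃ I R'`. -/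
noncomputable def invertibleIdealEquiv (I : Ideal R) [Module.Invertible R I]
    (h' : Module.Invertible R' (I.map (algebraMap R R'))) :
    R' ⊗[R] I ≃ₗ[R'] (I.map (algebraMap R R')) :=
  LinearEquiv.ofBijective (idealMulMap I)
    (Module.Invertible.bijective_of_surjective (idealMulMap_surjective I))

@[simp] lemma invertibleIdealEquiv_tmul (I : Ideal R) [Module.Invertible R I]
    (h' : Module.Invertible R' (I.map (algebraMap R R'))) (s : R') (n : I) :
    ((invertibleIdealEquiv I h' (s ⊗ₜ[R] n) : I.map (algebraMap R R')) : R') =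
      s * algebraMap R R' (n : R) :=
  idealMulMap_tmul I s n

end InvIdeal

section Closure

variable {S S01 : Type*} [CommRing S] [CommRing S01] [Algebra S S01]

/-- If `s` is invertible modulo an ideal `J` of `S` and `S01 = S[1/s]`, then `J` is the
contraction of its extension to `S01`. -/
lemma comap_map_eq_of_unit (s u : S) [IsLocalization.Away s S01] (J : Ideal S)
    (hu : u * s - 1 ∈ J) :
    (J.map (algebraMap S S01)).comap (algebraMap S S01) = J := by
  apply le_antisymm
  · intro z hz
    rw [Ideal.mem_comap, IsLocalization.mem_map_algebraMap_iff (Submonoid.powers s) S01] at hz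
    obtain ⟨⟨⟨a, ha⟩, ⟨_, n, rfl⟩⟩, h⟩ := hz
    rw [← map_mul, IsLocalization.eq_iff_exists (Submonoid.powers s) S01] at h
    obtain ⟨⟨_, m, rfl⟩, hm⟩ := h
    -- `s ^ (m + n) * z ∈ J`
    have h1 : s ^ (m + n) * z ∈ J := by
      have : s ^ (m + n) * z = s ^ m * a := by
        rw [pow_add, mul_assoc, ← hm]; ring
      rw [this]
      exact Ideal.mul_mem_left _ _ ha
    -- `(u s)^N ≡ 1`
    have h2 : (u * s) ^ (m + n) - 1 ∈ J := by
      obtain ⟨d, hd⟩ := sub_dvd_pow_sub_pow (u * s) 1 (m + n)
      rw [one_pow] at hd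
      rw [hd]
      exact Ideal.mul_mem_right _ _ hu
    have h3 : z = u ^ (m + n) * (s ^ (m + n) * z) - ((u * s) ^ (m + n) - 1) * z := by
      rw [mul_pow]; ring
    rw [h3]
    exact Ideal.sub_mem _ (Ideal.mul_mem_left _ _ h1) (Ideal.mul_mem_right _ _ h2)
  · exact Ideal.le_comap_map

end Closure


end Fermat.Agent.Jac.AbelJacobi73

namespace Fermat.Agent.Jac.AbelJacobi73

open Fermat.Agent.Jac Fermat.Agent.Jac.LineOps39 Fermat.Agent.Jac.JSmooth85Alg

section Cube

variable {A R0 R1 R01 A' R0' R1' R01' : Type u}
  [CommRing A] [CommRing R0] [CommRing R1] [CommRing R01]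
  [Algebra A R0] [Algebra A R1] [Algebra A R01] [Algebra R0 R01] [Algebra R1 R01]
  [IsScalarTower A R0 R01] [IsScalarTower A R1 R01]
  [CommRing A'] [CommRing R0'] [CommRing R1'] [CommRing R01']
  [Algebra A' R0'] [Algebra A' R1'] [Algebra A' R01'] [Algebra R0' R01'] [Algebra R1' R01']
  [IsScalarTower A' R0' R01'] [IsScalarTower A' R1' R01']
  [Algebra R0 R0'] [Algebra R1 R1'] [Algebra R01 R01']
  (c : TwoChart A R0 R1 R01) (c' : TwoChart A' R0' R1' R01')

/-- The overlap ideal of the extended pair is the extension of the overlap ideal. -/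
lemma I01_map_of_I0_map
    (hc0 : (algebraMap R0' R01').comp (algebraMap R0 R0') =
      (algebraMap R01 R01').comp (algebraMap R0 R01))
    (D : IdealPair R0 R1 R01) (D' : IdealPair R0' R1' R01')
    (h0 : D'.I0 = D.I0.map (algebraMap R0 R0')) :
    D'.I01 = D.I01.map (algebraMap R01 R01') := by
  unfold IdealPair.I01
  rw [h0, Ideal.map_map, Ideal.map_map, hc0]

/-- **Base change of ideal sheaves.**  If the ideals of `D'` are the extensions of the ideals of
`D` and all ideals involved are invertible modules, then `O(-D')` is the chartwise base change of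
`O(-D)`. -/
noncomputable def liftDataOfIdeals
    (hc0 : (algebraMap R0' R01').comp (algebraMap R0 R0') =
      (algebraMap R01 R01').comp (algebraMap R0 R01))
    (hc1 : (algebraMap R1' R01').comp (algebraMap R1 R1') =
      (algebraMap R01 R01').comp (algebraMap R1 R01))
    (D : IdealPair R0 R1 R01) (D' : IdealPair R0' R1' R01')
    (h0 : D'.I0 = D.I0.map (algebraMap R0 R0')) (h1 : D'.I1 = D.I1.map (algebraMap R1 R1'))
    (j0 : Module.Invertible R0 D.I0) (j1 : Module.Invertible R1 D.I1)
    (j01 : Module.Invertible R01 D.I01)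
    (i0 : Module.Invertible R0' D'.I0) (i1 : Module.Invertible R1' D'.I1)
    (i01 : Module.Invertible R01' D'.I01) :
    LiftData (ofIdeals c D) (ofIdeals c' D') :=
  have h01 := I01_map_of_I0_map hc0 D D' h0
  { e0 := (invertibleIdealEquiv D.I0 (h0 ▸ i0)).trans (LinearEquiv.ofEq _ _ h0.symm)
    e1 := (invertibleIdealEquiv D.I1 (h1 ▸ i1)).trans (LinearEquiv.ofEq _ _ h1.symm)
    e01 := (invertibleIdealEquiv D.I01 (h01 ▸ i01)).trans (LinearEquiv.ofEq _ _ h01.symm)
    comm0 := fun (x : D.I0) => by
      apply Subtype.ext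
      change (1 : R01') * algebraMap R01 R01' (algebraMap R0 R01 (x : R0)) =
        algebraMap R0' R01' ((1 : R0') * algebraMap R0 R0' (x : R0))
      rw [one_mul, one_mul]
      exact (RingHom.congr_fun hc0 (x : R0)).symm
    comm1 := fun (x : D.I1) => by
      apply Subtype.ext
      change (1 : R01') * algebraMap R01 R01' (algebraMap R1 R01 (x : R1)) =
        algebraMap R1' R01' ((1 : R1') * algebraMap R1 R1' (x : R1))
      rw [one_mul, one_mul]
      exact (RingHom.congr_fun hc1 (x : R1)).symm }

/-- **Base change of closures.**  If `s` is invertible modulo the chart-1 ideal of the closure of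
`V(I0)`, the chart-1 ideal of the closure of `V(I0 R0')` is the extension of that ideal. -/
lemma ofChart0_I1_map
    (hc0 : (algebraMap R0' R01').comp (algebraMap R0 R0') =
      (algebraMap R01 R01').comp (algebraMap R0 R01))
    (hc1 : (algebraMap R1' R01').comp (algebraMap R1 R1') =
      (algebraMap R01 R01').comp (algebraMap R1 R01))
    (hs : algebraMap R1 R1' c.s = c'.s) (I0 : Ideal R0) (u : R1)
    (hu : u * c.s - 1 ∈ (IdealPair.ofChart0 c I0).I1) :
    (IdealPair.ofChart0 c' (I0.map (algebraMap R0 R0'))).I1 =
      ((IdealPair.ofChart0 c I0).I1).map (algebraMap R1 R1') := by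
  haveI := c'.away1
  have hK : (I0.map (algebraMap R0 R0')).map (algebraMap R0' R01') =
      (((IdealPair.ofChart0 c I0).I1).map (algebraMap R1 R1')).map (algebraMap R1' R01') := by
    rw [Ideal.map_map, Ideal.map_map, hc0, hc1, ← Ideal.map_map, ← Ideal.map_map,
      ← (IdealPair.ofChart0 c I0).compat]
    rfl
  change ((I0.map (algebraMap R0 R0')).map (algebraMap R0' R01')).comap (algebraMap R1' R01') = _
  rw [hK]
  refine comap_map_eq_of_unit c'.s (algebraMap R1 R1' u) _ ?_
  have := Ideal.mem_map_of_mem (algebraMap R1 R1') hu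
  rwa [map_sub, map_mul, map_one, hs] at this

/-- Symmetric version of `ofChart0_I1_map`. -/
lemma ofChart1_I0_map
    (hc0 : (algebraMap R0' R01').comp (algebraMap R0 R0') =
      (algebraMap R01 R01').comp (algebraMap R0 R01))
    (hc1 : (algebraMap R1' R01').comp (algebraMap R1 R1') =
      (algebraMap R01 R01').comp (algebraMap R1 R01))
    (ht : algebraMap R0 R0' c.t = c'.t) (I1 : Ideal R1) (u : R0)
    (hu : u * c.t - 1 ∈ (IdealPair.ofChart1 c I1).I0) :
    (IdealPair.ofChart1 c' (I1.map (algebraMap R1 R1'))).I0 =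
      ((IdealPair.ofChart1 c I1).I0).map (algebraMap R0 R0') := by
  haveI := c'.away0
  have hK : (I1.map (algebraMap R1 R1')).map (algebraMap R1' R01') =
      (((IdealPair.ofChart1 c I1).I0).map (algebraMap R0 R0')).map (algebraMap R0' R01') := by
    rw [Ideal.map_map, Ideal.map_map, hc0, hc1, ← Ideal.map_map, ← Ideal.map_map,
      (IdealPair.ofChart1 c I1).compat]
    rfl
  change ((I1.map (algebraMap R1 R1')).map (algebraMap R1' R01')).comap (algebraMap R0' R01') = _
  rw [hK]
  refine comap_map_eq_of_unit c'.t (algebraMap R0 R0' u) _ ?_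
  have := Ideal.mem_map_of_mem (algebraMap R0 R0') hu
  rwa [map_sub, map_mul, map_one, ht] at this

end Cube

end Fermat.Agent.Jac.AbelJacobi73
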