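/-
Programme JAC, brick Q3a (QC2 side), helper73: the ideal sheaf `O(-Γ_x)` of the graph of an
`A`-valued point `x` of a chart of the curve is a line bundle on the curve over `A`
(`isLine_ofIdeals_graphPair0/1`, via helper43's relative Cartier theorem applied to the universal
case `H = B`, the diagonal), and it commutes with base change `A → A'`
(`liftData_graphPair0/1`).
-/
import Fermat.Agent.Jac.AbelJacobi73.GraphPair
import Fermat.Agent.Jac.AbelJacobi73.IdealCube
import Fermat.Agent.Jac.Chart43.RelCartier
import Fermat.Agent.Jac.LineOps39.PatchInvertible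

set_option autoImplicit false
set_option linter.unusedSectionVars false
set_option linter.style.haveILetI false

universe u

open TensorProduct Polynomial

namespace Fermat.Agent.Jac.AbelJacobi73

open Fermat.Agent.Jac Fermat.Agent.Jac.LineOps39 Fermat.Agent.Jac.JSmooth85Alg
open scoped Fermat.Agent.Jac.BaseChange75

section QuotGraph

variable {k : Type u} [CommRing k] {B : Type u} [CommRing B] [Algebra k B]
  (A : Type u) [CommRing A] [Algebra k A]

/-- The quotient by the graph ideal is the base ring. -/
noncomputable def quotGraphIdealEquiv (x : B →ₐ[k] A) :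
    ((A ⊗[k] B) ⧸ graphIdeal A x) ≃ₐ[A] A :=
  Ideal.quotientKerAlgEquivOfSurjective (evalAt_surjective A x)

instance finite_quot_graphIdeal (x : B →ₐ[k] A) :
    Module.Finite A ((A ⊗[k] B) ⧸ graphIdeal A x) :=
  Module.Finite.equiv (quotGraphIdealEquiv A x).toLinearEquiv.symm

instance free_quot_graphIdeal (x : B →ₐ[k] A) :
    Module.Free A ((A ⊗[k] B) ⧸ graphIdeal A x) :=
  Module.Free.of_equiv (quotGraphIdealEquiv A x).toLinearEquiv.symm

/-- The graph ideal is extended from the diagonal ideal. -/
lemma graphIdeal_eq_map_diag (x : B →ₐ[k] A) :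
    graphIdeal A x = (graphIdeal B (AlgHom.id k B)).map
      (Algebra.TensorProduct.map x (AlgHom.id k B)).toRingHom := by
  rw [graphIdeal_eq_span, graphIdeal_eq_span, Ideal.map_span]
  congr 1
  ext z
  constructor
  · rintro ⟨b, rfl⟩
    refine ⟨_, ⟨b, rfl⟩, ?_⟩
    simp
  · rintro ⟨_, ⟨b, rfl⟩, rfl⟩
    refine ⟨b, ?_⟩
    simp

end QuotGraph

section Invertible

attribute [local instance] Polynomial.algebra

variable {k : Type u} [Field k]

/-- If `B ≠ 0` is flat over `k[X]` through `b`, then `b` is transcendental over `k`. -/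
lemma transcendental_of_flat {B : Type u} [CommRing B] [Algebra k B] [Nontrivial B] (b : B)
    (hflat : Module.Flat k[X] (Module.AEval k B b)) : Transcendental k b := by
  rw [transcendental_iff]
  intro p hp
  by_contra hne
  have hreg : IsSMulRegular (Module.AEval k B b) p :=
    Module.Flat.isSMulRegular_of_isRegular (IsRegular.of_ne_zero hne)
  have h1 : p • (Module.AEval.of k B b (1 : B)) = p • (Module.AEval.of k B b 0) := by
    rw [← Module.AEval.of_aeval_smul, ← Module.AEval.of_aeval_smul, hp, zero_smul, smul_zero]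
  have h2 := (Module.AEval.of k B b).injective (hreg h1)
  exact one_ne_zero h2

variable [IsAlgClosed k] {B : Type u} [CommRing B] [Algebra k B]
  [Algebra.FiniteType k B] [IsDedekindDomain B]

/-- **The graph of an `A`-valued point of a smooth affine curve is a relative Cartier divisor.** -/
theorem invertible_graphIdeal (b : B) (hflat : Module.Flat k[X] (Module.AEval k B b))
    (A : Type u) [CommRing A] [Algebra k A] (x : B →ₐ[k] A) :
    Module.Invertible (A ⊗[k] B) (graphIdeal A x) := by
  haveI : Module.Flat A[X] (Module.AEval A (A ⊗[k] B) ((1 : A) ⊗ₜ[k] b)) :=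
    Module.Flat.of_linearEquiv (BaseChange75.aevalTensorEquiv A b)
  exact Chart43.relCartier_of_map (H := B) (A := A) b (transcendental_of_flat b hflat)
    (graphIdeal B (AlgHom.id k B))
    (Algebra.TensorProduct.map x (AlgHom.id k B)).toRingHom (graphIdeal A x)
    (graphIdeal_eq_map_diag A x) ((1 : A) ⊗ₜ[k] b)

end Invertible

section GraphLine

attribute [local instance] Polynomial.algebra

variable {k B0 B1 B01 : Type u} [Field k] [IsAlgClosed k] [CommRing B0] [CommRing B1]
  [CommRing B01]
  [Algebra k B0] [Algebra k B1] [Algebra k B01] [Algebra B0 B01] [Algebra B1 B01]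
  [IsScalarTower k B0 B01] [IsScalarTower k B1 B01]
  [Algebra.FiniteType k B0] [IsDedekindDomain B0] [Algebra.FiniteType k B1] [IsDedekindDomain B1]
  (c0 : TwoChart k B0 B1 B01) (hFP : c0.FiniteProjOverLine)
  (A : Type u) [CommRing A] [Algebra k A]

lemma t_sub_mem_graphIdeal (x : B0 →ₐ[k] A) :
    (c0.baseChange A).t - algebraMap A (A ⊗[k] B0) (x c0.t) ∈ graphIdeal A x := by
  rw [BaseChange75.baseChange_t, Algebra.TensorProduct.algebraMap_apply]
  exact one_tmul_sub_mem_graphIdeal A x c0.t

lemma s_sub_mem_graphIdeal (x : B1 →ₐ[k] A) :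
    (c0.baseChange A).s - algebraMap A (A ⊗[k] B1) (x c0.s) ∈ graphIdeal A x := by
  rw [BaseChange75.baseChange_s, Algebra.TensorProduct.algebraMap_apply]
  exact one_tmul_sub_mem_graphIdeal A x c0.s

include hFP

theorem invertible_graphPair0_I0 (x : B0 →ₐ[k] A) :
    Module.Invertible (A ⊗[k] B0) (graphPair0 c0 A x).I0 :=
  haveI := hFP.proj0
  invertible_graphIdeal c0.t inferInstance A x

theorem invertible_graphPair0_I1 (x : B0 →ₐ[k] A) :
    Module.Invertible (A ⊗[k] B1) (graphPair0 c0 A x).I1 :=
  invertible_ofChart0_I1 (c0.baseChange A) (graphIdeal A x)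
    (invertible_graphPair0_I0 c0 hFP A x) (x c0.t) (t_sub_mem_graphIdeal c0 A x)

theorem invertible_graphPair0_I01 (x : B0 →ₐ[k] A) :
    Module.Invertible (A ⊗[k] B01) (graphPair0 c0 A x).I01 :=
  IdealPair.invertible_I01 (c0.baseChange A) _ (invertible_graphPair0_I0 c0 hFP A x)

theorem invertible_graphPair1_I1 (x : B1 →ₐ[k] A) :
    Module.Invertible (A ⊗[k] B1) (graphPair1 c0 A x).I1 :=
  haveI := hFP.proj1
  invertible_graphIdeal c0.s inferInstance A x

theorem invertible_graphPair1_I0 (x : B1 →ₐ[k] A) :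
    Module.Invertible (A ⊗[k] B0) (graphPair1 c0 A x).I0 :=
  invertible_ofChart1_I0 (c0.baseChange A) (graphIdeal A x)
    (invertible_graphPair1_I1 c0 hFP A x) (x c0.s) (s_sub_mem_graphIdeal c0 A x)

theorem invertible_graphPair1_I01 (x : B1 →ₐ[k] A) :
    Module.Invertible (A ⊗[k] B01) (graphPair1 c0 A x).I01 :=
  IdealPair.invertible_I01' (c0.baseChange A) _ (invertible_graphPair1_I1 c0 hFP A x)

/-- **D2**: `O(-Γ_x)` is a line bundle on the curve over `A` (point in chart 0). -/
theorem isLine_ofIdeals_graphPair0 (x : B0 →ₐ[k] A) :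
    (ofIdeals (c0.baseChange A) (graphPair0 c0 A x)).IsLine :=
  isLine_ofIdeals (c0.baseChange A) _ (invertible_graphPair0_I0 c0 hFP A x)
    (invertible_graphPair0_I1 c0 hFP A x)

/-- **D2**: `O(-Γ_x)` is a line bundle on the curve over `A` (point in chart 1). -/
theorem isLine_ofIdeals_graphPair1 (x : B1 →ₐ[k] A) :
    (ofIdeals (c0.baseChange A) (graphPair1 c0 A x)).IsLine :=
  isLine_ofIdeals (c0.baseChange A) _ (invertible_graphPair1_I0 c0 hFP A x)
    (invertible_graphPair1_I1 c0 hFP A x)

variable {A} (A' : Type u) [CommRing A'] [Algebra k A'] [Algebra A A'] [IsScalarTower k A A']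

omit hFP in
lemma graphPair0_I1_map (x : B0 →ₐ[k] A) :
    (graphPair0 c0 A' ((IsScalarTower.toAlgHom k A A').comp x)).I1 =
      (graphPair0 c0 A x).I1.map (algebraMap (A ⊗[k] B1) (A' ⊗[k] B1)) := by
  unfold graphPair0
  rw [← graphIdeal_map A' x]
  exact ofChart0_I1_map (c0.baseChange A) (c0.baseChange A')
    (BaseChange75.square_comm k A A' B0 B01) (BaseChange75.square_comm k A A' B1 B01)
    (BaseChange75.algebraMap_baseChange_s c0 A A') (graphIdeal A x) _
    (ofChart0_unit_mod (c0.baseChange A) (graphIdeal A x) (x c0.t) (t_sub_mem_graphIdeal c0 A x))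

omit hFP in
lemma graphPair1_I0_map (x : B1 →ₐ[k] A) :
    (graphPair1 c0 A' ((IsScalarTower.toAlgHom k A A').comp x)).I0 =
      (graphPair1 c0 A x).I0.map (algebraMap (A ⊗[k] B0) (A' ⊗[k] B0)) := by
  unfold graphPair1
  rw [← graphIdeal_map A' x]
  exact ofChart1_I0_map (c0.baseChange A) (c0.baseChange A')
    (BaseChange75.square_comm k A A' B0 B01) (BaseChange75.square_comm k A A' B1 B01)
    (BaseChange75.algebraMap_baseChange_t c0 A A') (graphIdeal A x) _
    (ofChart1_unit_mod (c0.baseChange A) (graphIdeal A x) (x c0.s) (s_sub_mem_graphIdeal c0 A x))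

/-- **D3**: base change of `O(-Γ_x)` along `A → A'` (point in chart 0). -/
noncomputable def liftData_graphPair0 (x : B0 →ₐ[k] A) :
    LiftData (ofIdeals (c0.baseChange A) (graphPair0 c0 A x))
      (ofIdeals (c0.baseChange A')
        (graphPair0 c0 A' ((IsScalarTower.toAlgHom k A A').comp x))) :=
  liftDataOfIdeals (c0.baseChange A) (c0.baseChange A')
    (BaseChange75.square_comm k A A' B0 B01) (BaseChange75.square_comm k A A' B1 B01)
    (graphPair0 c0 A x) (graphPair0 c0 A' ((IsScalarTower.toAlgHom k A A').comp x))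
    (graphIdeal_map A' x).symm (graphPair0_I1_map c0 A' x)
    (invertible_graphPair0_I0 c0 hFP A x) (invertible_graphPair0_I1 c0 hFP A x)
    (invertible_graphPair0_I01 c0 hFP A x)
    (invertible_graphPair0_I0 c0 hFP A' _) (invertible_graphPair0_I1 c0 hFP A' _)
    (invertible_graphPair0_I01 c0 hFP A' _)

/-- **D3**: base change of `O(-Γ_x)` along `A → A'` (point in chart 1). -/
noncomputable def liftData_graphPair1 (x : B1 →ₐ[k] A) :
    LiftData (ofIdeals (c0.baseChange A) (graphPair1 c0 A x))
      (ofIdeals (c0.baseChange A')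
        (graphPair1 c0 A' ((IsScalarTower.toAlgHom k A A').comp x))) :=
  liftDataOfIdeals (c0.baseChange A) (c0.baseChange A')
    (BaseChange75.square_comm k A A' B0 B01) (BaseChange75.square_comm k A A' B1 B01)
    (graphPair1 c0 A x) (graphPair1 c0 A' ((IsScalarTower.toAlgHom k A A').comp x))
    (graphPair1_I0_map c0 A' x) (graphIdeal_map A' x).symm
    (invertible_graphPair1_I0 c0 hFP A x) (invertible_graphPair1_I1 c0 hFP A x)
    (invertible_graphPair1_I01 c0 hFP A x)
    (invertible_graphPair1_I0 c0 hFP A' _) (invertible_graphPair1_I1 c0 hFP A' _)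
    (invertible_graphPair1_I01 c0 hFP A' _)

end GraphLine

end Fermat.Agent.Jac.AbelJacobi73
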