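/-
Programme JAC, brick Q3a (QC2 side), helper73: the point line `O(P0 - Γ_x)` of an `A`-valued point
`x` of a chart of the curve, for a constant base point `P0` of chart 1: definition
(`pointLine0/1`), `IsLine`, compatibility with base change `A → A'` (`liftData_pointLine0/1`),
chart independence (`pointLine0_eq_pointLine1`), triviality at the base point (`pointLine1_base`).
-/
import Fermat.Agent.Jac.AbelJacobi73.GraphLine
import Fermat.Agent.Jac.LineOps39.BCDual
import Fermat.Agent.Jac.DegAdd79Rel

set_option autoImplicit false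
set_option linter.unusedSectionVars false
set_option linter.style.haveILetI false

universe u

open TensorProduct Polynomial

namespace Fermat.Agent.Jac.AbelJacobi73

open Fermat.Agent.Jac Fermat.Agent.Jac.LineOps39 Fermat.Agent.Jac.JSmooth85Alg
open scoped Fermat.Agent.Jac.BaseChange75

section ConstPt

variable {k : Type u} [CommRing k] {B : Type u} [CommRing B] [Algebra k B]
  (A : Type u) [CommRing A] [Algebra k A]

/-- The constant `A`-valued point with value the `k`-point `p0`. -/
def constPt (p0 : B →ₐ[k] k) : B →ₐ[k] A := (Algebra.ofId k A).comp p0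

@[simp] lemma constPt_apply (p0 : B →ₐ[k] k) (b : B) :
    constPt A p0 b = algebraMap k A (p0 b) := rfl

lemma constPt_comp (A' : Type u) [CommRing A'] [Algebra k A'] [Algebra A A']
    [IsScalarTower k A A'] (p0 : B →ₐ[k] k) :
    (IsScalarTower.toAlgHom k A A').comp (constPt A p0) = constPt A' p0 := by
  ext b
  simp [← IsScalarTower.algebraMap_apply]

end ConstPt

section PointLine

variable {k B0 B1 B01 : Type u} [Field k] [IsAlgClosed k] [CommRing B0] [CommRing B1]
  [CommRing B01]
  [Algebra k B0] [Algebra k B1] [Algebra k B01] [Algebra B0 B01] [Algebra B1 B01]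
  [IsScalarTower k B0 B01] [IsScalarTower k B1 B01]
  [Algebra.FiniteType k B0] [IsDedekindDomain B0] [Algebra.FiniteType k B1] [IsDedekindDomain B1]
  (c0 : TwoChart k B0 B1 B01) (hFP : c0.FiniteProjOverLine) (p0 : B1 →ₐ[k] k)
  (A : Type u) [CommRing A] [Algebra k A]

/-- `O(P0)` on the curve over `A`, for the constant point `P0` of chart 1. -/
noncomputable def baseLine : QC2 A (A ⊗[k] B0) (A ⊗[k] B1) (A ⊗[k] B01) :=
  ofDivisor (c0.baseChange A) (graphPair1 c0 A (constPt A p0))
    (isVB_of_isLine (isLine_ofIdeals_graphPair1 c0 hFP A (constPt A p0)))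

theorem isLine_baseLine : (baseLine c0 hFP p0 A).IsLine :=
  isLine_ofDivisor (c0.baseChange A) _ (invertible_graphPair1_I0 c0 hFP A _)
    (invertible_graphPair1_I1 c0 hFP A _)

/-- `O(P0 - Γ_x)` for an `A`-valued point `x` of chart 0. -/
noncomputable def pointLine0 (x : B0 →ₐ[k] A) : QC2 A (A ⊗[k] B0) (A ⊗[k] B1) (A ⊗[k] B01) :=
  tensor (ofIdeals (c0.baseChange A) (graphPair0 c0 A x)) (baseLine c0 hFP p0 A)

/-- `O(P0 - Γ_x)` for an `A`-valued point `x` of chart 1. -/
noncomputable def pointLine1 (x : B1 →ₐ[k] A) : QC2 A (A ⊗[k] B0) (A ⊗[k] B1) (A ⊗[k] B01) :=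
  tensor (ofIdeals (c0.baseChange A) (graphPair1 c0 A x)) (baseLine c0 hFP p0 A)

theorem isLine_pointLine0 (x : B0 →ₐ[k] A) : (pointLine0 c0 hFP p0 A x).IsLine :=
  isLine_tensor (isLine_ofIdeals_graphPair0 c0 hFP A x) (isLine_baseLine c0 hFP p0 A)

theorem isLine_pointLine1 (x : B1 →ₐ[k] A) : (pointLine1 c0 hFP p0 A x).IsLine :=
  isLine_tensor (isLine_ofIdeals_graphPair1 c0 hFP A x) (isLine_baseLine c0 hFP p0 A)

/-- **Chart independence** of the point line. -/
theorem pointLine0_eq_pointLine1 (x : B01 →ₐ[k] A) :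
    pointLine0 c0 hFP p0 A (x.comp (IsScalarTower.toAlgHom k B0 B01)) =
      pointLine1 c0 hFP p0 A (x.comp (IsScalarTower.toAlgHom k B1 B01)) := by
  unfold pointLine0 pointLine1
  rw [graphPair0_eq_graphPair1]

/-- At the base point the point line is trivial. -/
noncomputable def pointLine1_base :
    QC2.Iso (pointLine1 c0 hFP p0 A (constPt A p0)) QC2.unit :=
  isoTrans (tensorComm _ _)
    (ofDivisorTensorIso (c0.baseChange A) (graphPair1 c0 A (constPt A p0))
      (invertible_graphPair1_I0 c0 hFP A _) (invertible_graphPair1_I1 c0 hFP A _))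

variable {A} (A' : Type u) [CommRing A'] [Algebra k A'] [Algebra A A'] [IsScalarTower k A A']

/-- `O(P0)` commutes with base change. -/
noncomputable def liftData_baseLine : LiftData (baseLine c0 hFP p0 A) (baseLine c0 hFP p0 A') := by
  have h := liftData_graphPair1 c0 hFP A' (constPt A p0)
  have hl := isLine_ofIdeals_graphPair1 c0 hFP A' ((IsScalarTower.toAlgHom k A A').comp
    (constPt A p0))
  have key : ∀ (y : B1 →ₐ[k] A') (hy : y = constPt A' p0)
      (h : LiftData (ofIdeals (c0.baseChange A) (graphPair1 c0 A (constPt A p0)))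
        (ofIdeals (c0.baseChange A') (graphPair1 c0 A' y))),
      LiftData (baseLine c0 hFP p0 A) (baseLine c0 hFP p0 A') := by
    intro y hy h
    subst hy
    exact liftDataOfDivisor (BaseChange75.square_comm k A A' B0 B01)
      (BaseChange75.square_comm k A A' B1 B01) (c0.baseChange A) (c0.baseChange A') h
      (isLine_ofIdeals_graphPair1 c0 hFP A (constPt A p0))
      (isLine_ofIdeals_graphPair1 c0 hFP A' (constPt A' p0))
  exact key _ (constPt_comp A A' p0) h

/-- **D5**: the point line commutes with base change (chart 0). -/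
noncomputable def liftData_pointLine0 (x : B0 →ₐ[k] A) :
    LiftData (pointLine0 c0 hFP p0 A x)
      (pointLine0 c0 hFP p0 A' ((IsScalarTower.toAlgHom k A A').comp x)) :=
  DegAdd79Rel.LiftData.tensor (liftData_graphPair0 c0 hFP A' x) (liftData_baseLine c0 hFP p0 A')

/-- **D5**: the point line commutes with base change (chart 1). -/
noncomputable def liftData_pointLine1 (x : B1 →ₐ[k] A) :
    LiftData (pointLine1 c0 hFP p0 A x)
      (pointLine1 c0 hFP p0 A' ((IsScalarTower.toAlgHom k A A').comp x)) :=
  DegAdd79Rel.LiftData.tensor (liftData_graphPair1 c0 hFP A' x) (liftData_baseLine c0 hFP p0 A')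

end PointLine

end Fermat.Agent.Jac.AbelJacobi73
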