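/-
Programme JAC, brick Q3a (QC2 side), helper73: fibrewise Euler characteristics.
`chi_ofIdeals_graphPair0/1`: `χ_p(O(-Γ_x)) = χ(O) - 1`;  `chi_pointLine0/1` (**D6**):
`χ_p(O(P0 - Γ_x)) = χ(O) = ChiBC36.chiUnit`, i.e. the point line lies in the Euler-characteristic
cut.  Proof: base change to the residue field (`liftData_graphPair`), where the graph is a
rational point, plus degree additivity (helper79).
-/
import Fermat.Agent.Jac.AbelJacobi73.PointLine
import Fermat.Agent.Jac.AbelJacobi73.ChiK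
import Fermat.Agent.Jac.ChiBC36

set_option autoImplicit false
set_option linter.unusedSectionVars false
set_option linter.style.haveILetI false

universe u

open TensorProduct Polynomial Module

namespace Fermat.Agent.Jac.AbelJacobi73

open Fermat.Agent.Jac Fermat.Agent.Jac.LineOps39 Fermat.Agent.Jac.JSmooth85Alg
open scoped Fermat.Agent.Jac.BaseChange75

section Field

variable {K R0 R1 R01 : Type u} [Field K] [CommRing R0] [CommRing R1] [CommRing R01]
  [Algebra K R0] [Algebra K R1] [Algebra K R01] [Algebra R0 R01] [Algebra R1 R01]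
  [IsScalarTower K R0 R01] [IsScalarTower K R1 R01]
  (c : TwoChart K R0 R1 R01) (hc : c.FiniteProjOverLine)

lemma chiField_eq_chiK (L : QC2 K R0 R1 R01) : L.chiField K = chiK L :=
  DegAdd79.chiField_eq_eulerChar L

include hc in
lemma finCoh_of_isLine {L : QC2 K R0 R1 R01} (hL : L.IsLine) : FinCoh L :=
  ⟨(DegAdd79.finiteDimensional_of_isLine c hc hL).1,
    (DegAdd79.finiteDimensional_of_isLine c hc hL).2⟩

include hc in
/-- `χ(O(-X)) = χ(O) - 1` for a rational point `X`. -/
theorem chiK_ofIdeals_ratPoint (X : IdealPair R0 R1 R01) (hX : IsRatPointPair c X)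
    (h0 : Module.Invertible R0 X.I0) (h1 : Module.Invertible R1 X.I1) :
    chiK (ofIdeals c X) = chiK (QC2.unit : QC2 K R0 R1 R01) - 1 := by
  have hline : (downTwist c (QC2.unit : QC2 K R0 R1 R01) X).IsLine :=
    isLine_downTwist c isLine_unit X h0 h1
  have e : QC2.Iso (ofIdeals c X) (downTwist c (QC2.unit : QC2 K R0 R1 R01) X) :=
    isoTrans (isoSymm (tensorUnitRight (ofIdeals c X)))
      (tensorOfIdealsIso c X (isVB_of_isLine isLine_unit))
  rw [chiK_of_iso e]
  exact chiK_downTwist_ratPoint c QC2.unit isLine_unit X hX (finCoh_of_isLine c hc isLine_unit)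
    (finCoh_of_isLine c hc hline).fin1

end Field

section RatPoint

variable {k : Type u} [Field k] {B0 B1 B01 : Type u} [CommRing B0] [CommRing B1] [CommRing B01]
  [Algebra k B0] [Algebra k B1] [Algebra k B01] [Algebra B0 B01] [Algebra B1 B01]
  [IsScalarTower k B0 B01] [IsScalarTower k B1 B01]
  (c0 : TwoChart k B0 B1 B01) (K : Type u) [Field K] [Algebra k K]

lemma graphIdeal_isMaximal {B : Type u} [CommRing B] [Algebra k B] (x : B →ₐ[k] K) :
    (graphIdeal K x).IsMaximal :=
  RingHom.ker_isMaximal_of_surjective _ (evalAt_surjective K x)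

lemma algebraMap_quot_graphIdeal_surjective {B : Type u} [CommRing B] [Algebra k B]
    (x : B →ₐ[k] K) :
    Function.Surjective (algebraMap K ((K ⊗[k] B) ⧸ graphIdeal K x)) := by
  intro z
  obtain ⟨r, rfl⟩ := Ideal.Quotient.mk_surjective z
  refine ⟨evalAt K x r, ?_⟩
  rw [IsScalarTower.algebraMap_apply K (K ⊗[k] B) ((K ⊗[k] B) ⧸ graphIdeal K x),
    Ideal.Quotient.algebraMap_eq, Algebra.TensorProduct.algebraMap_apply, eq_comm,
    Ideal.Quotient.eq]
  exact sub_evalAt_tmul_one_mem K x r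

theorem isRatPointPair_graphPair0 (x : B0 →ₐ[k] K) :
    IsRatPointPair (c0.baseChange K) (graphPair0 c0 K x) :=
  Or.inl ⟨graphIdeal K x, graphIdeal_isMaximal K x,
    algebraMap_quot_graphIdeal_surjective K x, rfl⟩

theorem isRatPointPair_graphPair1 (x : B1 →ₐ[k] K) :
    IsRatPointPair (c0.baseChange K) (graphPair1 c0 K x) :=
  Or.inr ⟨graphIdeal K x, graphIdeal_isMaximal K x,
    algebraMap_quot_graphIdeal_surjective K x, rfl⟩

end RatPoint

section Chi

variable {k B0 B1 B01 : Type u} [Field k] [IsAlgClosed k] [CommRing B0] [CommRing B1]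
  [CommRing B01]
  [Algebra k B0] [Algebra k B1] [Algebra k B01] [Algebra B0 B01] [Algebra B1 B01]
  [IsScalarTower k B0 B01] [IsScalarTower k B1 B01]
  [Algebra.FiniteType k B0] [IsDedekindDomain B0] [Algebra.FiniteType k B1] [IsDedekindDomain B1]
  (c0 : TwoChart k B0 B1 B01) (hFP : c0.FiniteProjOverLine) (p0 : B1 →ₐ[k] k)
  (A : Type u) [CommRing A] [Algebra k A]

lemma chiK_unit_field (K : Type u) [Field K] [Algebra k K] :
    chiK (QC2.unit : QC2 K (K ⊗[k] B0) (K ⊗[k] B1) (K ⊗[k] B01)) =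
      ChiBC36.chiUnit k B0 B1 B01 := by
  rw [← chiField_eq_chiK, ← ChiBC36.chi_eq_chiField_of_field _ ⟨⊥, Ideal.isPrime_bot⟩,
    ChiBC36.chi_unit]

include hFP in
/-- **χ(O(-Γ_x)) = χ(O) - 1** fibrewise (point in chart 0). -/
theorem chi_ofIdeals_graphPair0 (x : B0 →ₐ[k] A) (p : PrimeSpectrum A) :
    (ofIdeals (c0.baseChange A) (graphPair0 c0 A x)).chi p = ChiBC36.chiUnit k B0 B1 B01 - 1 := by
  let K := p.asIdeal.ResidueField
  have h := liftData_graphPair0 c0 hFP K x
  show (ofIdeals (c0.baseChange A) (graphPair0 c0 A x)).chiField K = _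
  rw [← ChiBC36.chiField_liftData h K, chiField_eq_chiK,
    chiK_ofIdeals_ratPoint (c0.baseChange K) (hFP.baseChange K) _
      (isRatPointPair_graphPair0 c0 K _) (invertible_graphPair0_I0 c0 hFP K _)
      (invertible_graphPair0_I1 c0 hFP K _), chiK_unit_field]

include hFP in
/-- **χ(O(-Γ_x)) = χ(O) - 1** fibrewise (point in chart 1). -/
theorem chi_ofIdeals_graphPair1 (x : B1 →ₐ[k] A) (p : PrimeSpectrum A) :
    (ofIdeals (c0.baseChange A) (graphPair1 c0 A x)).chi p = ChiBC36.chiUnit k B0 B1 B01 - 1 := by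
  let K := p.asIdeal.ResidueField
  have h := liftData_graphPair1 c0 hFP K x
  show (ofIdeals (c0.baseChange A) (graphPair1 c0 A x)).chiField K = _
  rw [← ChiBC36.chiField_liftData h K, chiField_eq_chiK,
    chiK_ofIdeals_ratPoint (c0.baseChange K) (hFP.baseChange K) _
      (isRatPointPair_graphPair1 c0 K _) (invertible_graphPair1_I0 c0 hFP K _)
      (invertible_graphPair1_I1 c0 hFP K _), chiK_unit_field]

variable (hdom : ∀ (K : Type u) [Field K] [Algebra k K],
    IsDomain (K ⊗[k] B0) ∧ IsDomain (K ⊗[k] B1) ∧ Nontrivial (K ⊗[k] B01))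

include hdom in
theorem chi_baseLine (p : PrimeSpectrum A) :
    (baseLine c0 hFP p0 A).chi p = ChiBC36.chiUnit k B0 B1 B01 + 1 := by
  unfold baseLine ofDivisor
  rw [DegAdd79Rel.chi_dual_rel c0 hFP hdom (isLine_ofIdeals_graphPair1 c0 hFP A _) p,
    chi_ofIdeals_graphPair1 c0 hFP A _ p, ChiBC36.chi_unit]
  ring

include hdom in
/-- **D6**: the point line has the Euler characteristic of the structure sheaf (chart 0). -/
theorem chi_pointLine0 (x : B0 →ₐ[k] A) (p : PrimeSpectrum A) :
    (pointLine0 c0 hFP p0 A x).chi p = ChiBC36.chiUnit k B0 B1 B01 := by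
  unfold pointLine0
  rw [DegAdd79Rel.chi_tensor_rel c0 hFP hdom (isLine_ofIdeals_graphPair0 c0 hFP A x)
    (isLine_baseLine c0 hFP p0 A) p, chi_ofIdeals_graphPair0 c0 hFP A x p,
    chi_baseLine c0 hFP p0 A hdom p, ChiBC36.chi_unit]
  ring

include hdom in
/-- **D6**: the point line has the Euler characteristic of the structure sheaf (chart 1). -/
theorem chi_pointLine1 (x : B1 →ₐ[k] A) (p : PrimeSpectrum A) :
    (pointLine1 c0 hFP p0 A x).chi p = ChiBC36.chiUnit k B0 B1 B01 := by
  unfold pointLine1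
  rw [DegAdd79Rel.chi_tensor_rel c0 hFP hdom (isLine_ofIdeals_graphPair1 c0 hFP A x)
    (isLine_baseLine c0 hFP p0 A) p, chi_ofIdeals_graphPair1 c0 hFP A x p,
    chi_baseLine c0 hFP p0 A hdom p, ChiBC36.chi_unit]
  ring

end Chi

end Fermat.Agent.Jac.AbelJacobi73
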