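/-
Fermat/Agent/Jac/AbelJacobi73/BasePoint.lean  (helper73)

JAC programme, brick Q3, formal part Q3b (supplement): the base point of the Abel-Jacobi family
and the abstract bridge lemma.

* `isProductOfPoints_one`: if the one-point family sends a rational point `x` to the unit class,
  the unit class is a product of `g` one-point classes; `exists_basePoint`, `powerFamily_base`:
  the product family on `C^g` then sends `(x, …, x)` to the unit class (hypotheses `x0`, `hx0` of
  `FinalShell79` / `FinalAssembly86.s25_of_inputs_fibrePower`).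
* `isProductOfPoints_of_bridge`: hypothesis `H` of
  `smooth_isProper_geometricallyConnected_of_onePointFamily` from an injective multiplicative map
  `β` from classes over `Spec k` into a commutative group in which every class in the image is a
  product of `g` values of the one-point family.
-/
import Mathlib
import Fermat.Agent.Jac.AbelJacobi73.PowerFamily

set_option autoImplicit false

noncomputable section

universe u

open CategoryTheory CategoryTheory.Limits AlgebraicGeometry AlgebraicGeometry.RelPicard
  NeronModelInfra GoodReductionJacobian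

namespace Fermat.Agent.Jac.AbelJacobi73

open PointsBridge79 PointsBridge79Shell QShell79Power

variable {R : Type u} [CommRing R] {C : Scheme.{u}} {c : C ⟶ Spec (CommRingCat.of R)}
  {ε : SchemeHomOver (𝟙 (Spec (CommRingCat.of R))) c} {P : SubPicCondition c ε}
  (Γ : ClassGroupLaw P) (F1 : ClassFamily P c)

/-- If the one-point family sends the rational point `x` to the unit class, then the unit class
is a product of `g` one-point classes, for every `g`. -/
theorem isProductOfPoints_one (x : SchemeHomOver (𝟙 (Spec (CommRingCat.of R))) c)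
    (hx : clsAt F1 (CommRingCat.of R) x.1 (𝟙 (Spec (CommRingCat.of R))) x.2 =
      Γ.one (𝟙 (Spec (CommRingCat.of R)))) (g : ℕ) :
    IsProductOfPoints Γ F1 g (Γ.one (𝟙 (Spec (CommRingCat.of R)))) := by
  induction g with
  | zero => rfl
  | succ g ih => exact ⟨x, _, ih, by rw [hx, Γ.one_mul]⟩

/-- The product family on `C^g` sends some rational point to the unit class of the group law. -/
theorem exists_basePoint (x : SchemeHomOver (𝟙 (Spec (CommRingCat.of R))) c)
    (hx : clsAt F1 (CommRingCat.of R) x.1 (𝟙 (Spec (CommRingCat.of R))) x.2 =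
      Γ.one (𝟙 (Spec (CommRingCat.of R)))) (g : ℕ) :
    ∃ z : SchemeHomOver (𝟙 (Spec (CommRingCat.of R))) (fibrePower c g).hom,
      clsAt (powerFamily Γ F1 g) (CommRingCat.of R) z.1 (𝟙 (Spec (CommRingCat.of R))) z.2 =
        Γ.one (𝟙 (Spec (CommRingCat.of R))) :=
  exists_point_of_isProductOfPoints Γ F1 g _ (isProductOfPoints_one Γ F1 x hx g)

/-- The base point hypothesis (`x0`, `hx0`) of `FinalAssembly86.s25_of_inputs_fibrePower` for the
product family, when the unit of the group law is the class of the structure sheaf. -/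
theorem powerFamily_base (x : SchemeHomOver (𝟙 (Spec (CommRingCat.of R))) c)
    (hx : clsAt F1 (CommRingCat.of R) x.1 (𝟙 (Spec (CommRingCat.of R))) x.2 =
      Γ.one (𝟙 (Spec (CommRingCat.of R))))
    (hone : Γ.one (𝟙 (Spec (CommRingCat.of R))) =
      PClass.mk P (𝟙 _) (RigidifiedLineBundle.unit (𝟙 _)) (P.unit_mem _)) (g : ℕ) :
    ∃ x0 : SchemeHomOver (𝟙 (Spec (CommRingCat.of R))) (fibrePower c g).hom,
      (powerFamily Γ F1 g).cls (CommRingCat.of R) x0.1 =
        PClass.map P (⟨𝟙 _, by rw [Category.id_comp, x0.2]⟩ :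
          SchemeHomOver (x0.1 ≫ (fibrePower c g).hom) (𝟙 (Spec (CommRingCat.of R))))
          (PClass.mk P (𝟙 _) (RigidifiedLineBundle.unit (𝟙 _)) (P.unit_mem _)) := by
  obtain ⟨z, hz⟩ := exists_basePoint Γ F1 x hx g
  refine ⟨z, ?_⟩
  rw [map_id_eq_castClass, ← hone, ← hz]
  unfold clsAt
  rw [castClass_castClass]
  rfl

/-- **Abstract bridge.**  Let `β` be an injective map from classes over `Spec k` to a commutative
group `G`, multiplicative for the class group law.  If the `β`-image of every class is a product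
of `g` values `β (F1 x)` of the one-point family at rational points, then every class over
`Spec k` is a product of `g` one-point classes. -/
theorem isProductOfPoints_of_bridge {G : Type*} [CommGroup G]
    (β : PClass P (𝟙 (Spec (CommRingCat.of R))) → G) (hβ : Function.Injective β)
    (hmul : ∀ ξ η, β (Γ.mul (𝟙 (Spec (CommRingCat.of R))) ξ η) = β ξ * β η)
    (g : ℕ)
    (hsurj : ∀ ξ : PClass P (𝟙 (Spec (CommRingCat.of R))),
      ∃ l : List (SchemeHomOver (𝟙 (Spec (CommRingCat.of R))) c), l.length = g ∧
        β ξ = (l.map fun x =>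
          β (clsAt F1 (CommRingCat.of R) x.1 (𝟙 (Spec (CommRingCat.of R))) x.2)).prod)
    (ξ : PClass P (𝟙 (Spec (CommRingCat.of R)))) : IsProductOfPoints Γ F1 g ξ := by
  have hone : β (Γ.one (𝟙 (Spec (CommRingCat.of R)))) = 1 := by
    have h := hmul (Γ.one _) (Γ.one _)
    rw [Γ.one_mul] at h
    exact (mul_eq_left.1 h.symm)
  obtain ⟨l, hl, hξ⟩ := hsurj ξ
  clear hsurj
  subst hl
  induction l generalizing ξ with
  | nil =>
    apply hβ
    rw [hξ, hone]
    rfl
  | cons x l ih =>
    rw [List.map_cons, List.prod_cons] at hξ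
    let ξ' := Γ.mul (𝟙 (Spec (CommRingCat.of R)))
      (Γ.inv _ (clsAt F1 (CommRingCat.of R) x.1 (𝟙 (Spec (CommRingCat.of R))) x.2)) ξ
    have hξ' : β ξ' = (l.map fun x =>
        β (clsAt F1 (CommRingCat.of R) x.1 (𝟙 (Spec (CommRingCat.of R))) x.2)).prod := by
      have hinv : β (Γ.inv _ (clsAt F1 (CommRingCat.of R) x.1 (𝟙 (Spec (CommRingCat.of R))) x.2)) =
          (β (clsAt F1 (CommRingCat.of R) x.1 (𝟙 (Spec (CommRingCat.of R))) x.2))⁻¹ := by
        rw [eq_inv_iff_mul_eq_one, ← hmul, Γ.inv_mul_cancel, hone]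
      rw [hmul, hinv, hξ, inv_mul_cancel_left]
    refine ⟨x, ξ', ih ξ' hξ', ?_⟩
    rw [← Γ.mul_assoc]
    have hc : Γ.mul (𝟙 (Spec (CommRingCat.of R)))
        (clsAt F1 (CommRingCat.of R) x.1 (𝟙 (Spec (CommRingCat.of R))) x.2)
        (Γ.inv _ (clsAt F1 (CommRingCat.of R) x.1 (𝟙 (Spec (CommRingCat.of R))) x.2)) =
        Γ.one _ := by
      apply hβ
      rw [hmul, hone]
      have hinv : β (Γ.inv _ (clsAt F1 (CommRingCat.of R) x.1 (𝟙 (Spec (CommRingCat.of R))) x.2)) =
          (β (clsAt F1 (CommRingCat.of R) x.1 (𝟙 (Spec (CommRingCat.of R))) x.2))⁻¹ := by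
        rw [eq_inv_iff_mul_eq_one, ← hmul, Γ.inv_mul_cancel, hone]
      rw [hinv, mul_inv_cancel]
    rw [hc, Γ.one_mul]

end Fermat.Agent.Jac.AbelJacobi73

end
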