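/-
Fermat/Agent/Jac/AbelJacobi73/Content.lean  (helper73)

JAC programme, brick Q3 (Proper), part Q3c (algebra core), file 1 (Mathlib only):
the content ideal `contentIdeal R x = {φ x | φ ∈ Dual R N}` of an element of a module.
For an invertible module `contentIdeal R x • N = R x`; content ideals of elements of projective
modules commute with base change.
-/
import Mathlib

set_option autoImplicit false

universe u

open TensorProduct

namespace Fermat.Agent.Jac.AbelJacobi73

section Content

variable (R : Type*) [CommRing R] {N : Type*} [AddCommGroup N] [Module R N]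

/-- The content ideal of an element `x` of a module: all values `φ x` of linear functionals. -/
def contentIdeal (x : N) : Ideal R :=
  LinearMap.range (LinearMap.applyₗ x : Module.Dual R N →ₗ[R] R)

variable {R}

lemma mem_contentIdeal {x : N} {a : R} :
    a ∈ contentIdeal R x ↔ ∃ φ : Module.Dual R N, φ x = a := Iff.rfl

lemma apply_mem_contentIdeal (φ : Module.Dual R N) (x : N) : φ x ∈ contentIdeal R x := ⟨φ, rfl⟩

/-- In an invertible module, `φ a • b = φ b • a`. -/
lemma dual_apply_smul_comm [Module.Invertible R N] (φ : Module.Dual R N) (a b : N) :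
    φ a • b = φ b • a := by
  have h := congrArg (TensorProduct.lift ((LinearMap.lsmul R N).comp φ))
    (Module.Invertible.tmul_comm (R := R) (m₁ := a) (m₂ := b))
  simpa using h

/-- Dual basis expansion in a projective module: `x = ∑ φ_n(x) • n`. -/
lemma exists_dual_expansion [Module.Projective R N] (x : N) :
    ∃ (t : Finset N) (φ : N → Module.Dual R N), x = ∑ n ∈ t, φ n x • n := by
  obtain ⟨s, hs⟩ := Module.projective_def'.1 (inferInstance : Module.Projective R N)
  have hx : Finsupp.linearCombination R id (s x) = x := by
    simpa using LinearMap.congr_fun hs x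
  refine ⟨(s x).support, fun n => (Finsupp.lapply n).comp s, ?_⟩
  conv_lhs => rw [← hx, Finsupp.linearCombination_apply]
  rfl

/-- An element of a projective module lies in its content ideal times the module. -/
lemma mem_contentIdeal_smul_top [Module.Projective R N] (x : N) :
    x ∈ contentIdeal R x • (⊤ : Submodule R N) := by
  obtain ⟨t, φ, hx⟩ := exists_dual_expansion (R := R) x
  rw [hx]
  refine Submodule.sum_mem _ fun n _ => ?_
  rw [← hx]
  exact Submodule.smul_mem_smul (apply_mem_contentIdeal _ _) trivial

/-- For an invertible module, `content(x) • N = R x`. -/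
theorem contentIdeal_smul_top [Module.Invertible R N] (x : N) :
    contentIdeal R x • (⊤ : Submodule R N) = Submodule.span R {x} := by
  apply le_antisymm
  · rw [Submodule.smul_le]
    rintro a ⟨φ, rfl⟩ n -
    change φ x • n ∈ _
    rw [dual_apply_smul_comm]
    exact Submodule.smul_mem _ _ (Submodule.mem_span_singleton_self x)
  · rw [Submodule.span_singleton_le_iff_mem]
    exact mem_contentIdeal_smul_top x

/-- Content ideals of elements of projective modules commute with base change. -/
theorem contentIdeal_baseChange {S : Type*} [CommRing S] [Algebra R S] {N' : Type*}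
    [AddCommGroup N'] [Module R N'] [Module S N'] [IsScalarTower R S N']
    [Module.Projective R N] {f : N →ₗ[R] N'} (hf : IsBaseChange S f) (x : N) :
    contentIdeal S (f x) = (contentIdeal R x).map (algebraMap R S) := by
  apply le_antisymm
  · rintro _ ⟨ψ, rfl⟩
    change ψ (f x) ∈ _
    obtain ⟨t, φ, hx⟩ := exists_dual_expansion (R := R) x
    have h2 : ψ (f x) = ∑ n ∈ t, algebraMap R S (φ n x) * ψ (f n) := by
      conv_lhs => rw [hx]
      rw [map_sum, map_sum]
      refine Finset.sum_congr rfl fun n _ => ?_
      rw [map_smul, ← algebraMap_smul S, map_smul, smul_eq_mul]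
    rw [h2]
    refine Ideal.sum_mem _ fun n _ => ?_
    exact Ideal.mul_mem_right _ _ (Ideal.mem_map_of_mem _ (apply_mem_contentIdeal _ _))
  · rw [Ideal.map_le_iff_le_comap]
    rintro _ ⟨φ, rfl⟩
    change algebraMap R S (φ x) ∈ contentIdeal S (f x)
    refine ⟨hf.lift ((Algebra.linearMap R S).comp φ), ?_⟩
    change hf.lift ((Algebra.linearMap R S).comp φ) (f x) = _
    rw [hf.lift_eq]
    rfl

end Content

end Fermat.Agent.Jac.AbelJacobi73
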