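/-
Fermat/Agent/Jac/AbelJacobi73/Effective.lean  (helper73)

JAC programme, brick Q3 (Proper), part Q3c (algebra core), file 2:
a nonzero global section `σ` of a line two-chart module `L` over domain charts trivialises the
down-twist by its divisor of zeros: `O ≅ L(-div σ)`, where `div σ` is the ideal pair of content
ideals of the two chart components of `σ`.  Also: nonzero ideals of Dedekind domains are invertible
modules.
-/
import Fermat.Agent.Jac.LineOps39.Point
import Fermat.Agent.Jac.LineOps39.Section
import Fermat.Agent.Jac.AbelJacobi73.Content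

set_option autoImplicit false
set_option linter.unusedSectionVars false
set_option linter.style.haveILetI false

universe u

open TensorProduct

open scoped nonZeroDivisors

namespace Fermat.Agent.Jac.AbelJacobi73

open Fermat.Agent.Jac Fermat.Agent.Jac.LineOps39

/-- A nonzero ideal of a Dedekind domain is an invertible module. -/
theorem invertible_ideal_of_ne_bot {R : Type*} [CommRing R] [IsDedekindDomain R] (I : Ideal R)
    (hI : I ≠ ⊥) : Module.Invertible R I := by
  let F := FractionRing R
  have hI' : (I : FractionalIdeal R⁰ F) ≠ 0 := FractionalIdeal.coeIdeal_ne_zero.2 hI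
  have hmul : (I : FractionalIdeal R⁰ F) * (I : FractionalIdeal R⁰ F)⁻¹ = 1 :=
    mul_inv_cancel₀ hI'
  let u : (FractionalIdeal R⁰ F)ˣ := Units.mkOfMulEqOne _ _ hmul
  let v : (Submodule R F)ˣ := Units.map (FractionalIdeal.coeSubmoduleHom R⁰ F).toMonoidHom u
  have hv : (v : Submodule R F) = Submodule.map (Algebra.linearMap R F) I := by
    change ((I : FractionalIdeal R⁰ F) : Submodule R F) = _
    rw [FractionalIdeal.coe_coeIdeal]
    rfl
  have e : I ≃ₗ[R] (v : Submodule R F) :=
    (Submodule.equivMapOfInjective (Algebra.linearMap R F)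
      (IsFractionRing.injective R F) I).trans (LinearEquiv.ofEq _ _ hv.symm)
  exact Module.Invertible.congr e.symm

variable {A R0 R1 R01 : Type u} [CommRing A] [CommRing R0] [CommRing R1] [CommRing R01]
  [Algebra A R0] [Algebra A R1] [Algebra A R01] [Algebra R0 R01] [Algebra R1 R01]
  [IsScalarTower A R0 R01] [IsScalarTower A R1 R01]

section SectionPair

variable (c : TwoChart A R0 R1 R01) (L : QC2 A R0 R1 R01) (hL : L.IsLine)

/-- The effective divisor (ideal pair) of zeros of a global section of a line bundle. -/
def sectionPair (σ : L.H0) : IdealPair R0 R1 R01 where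
  I0 := contentIdeal R0 σ.1.1
  I1 := contentIdeal R1 σ.1.2
  compat := by
    haveI := hL.inv0
    haveI := hL.inv1
    rw [← contentIdeal_baseChange L.bc0, ← contentIdeal_baseChange L.bc1, H0_compat]

@[simp] lemma sectionPair_I0 (σ : L.H0) : (sectionPair L hL σ).I0 = contentIdeal R0 σ.1.1 := rfl
@[simp] lemma sectionPair_I1 (σ : L.H0) : (sectionPair L hL σ).I1 = contentIdeal R1 σ.1.2 := rfl

lemma sectionPair_I01 (σ : L.H0) :
    (sectionPair L hL σ).I01 = contentIdeal R01 (L.r0 σ.1.1) := by
  haveI := hL.inv0
  exact (contentIdeal_baseChange L.bc0 _).symm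

/-- An invertible module over a domain: an `R`-linear equivalence `R ≃ I • N` for `I` the content
ideal of a nonzero element. -/
noncomputable def equivContentSMulTop {R N : Type*} [CommRing R] [IsDomain R] [AddCommGroup N]
    [Module R N] [Module.Invertible R N] (x : N) (hx : x ≠ 0) :
    R ≃ₗ[R] ↥(contentIdeal R x • (⊤ : Submodule R N)) :=
  (LinearEquiv.toSpanNonzeroSingleton R N x hx).trans
    (LinearEquiv.ofEq _ _ (contentIdeal_smul_top x).symm)

@[simp] lemma equivContentSMulTop_apply {R N : Type*} [CommRing R] [IsDomain R] [AddCommGroup N]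
    [Module R N] [Module.Invertible R N] (x : N) (hx : x ≠ 0) (a : R) :
    (equivContentSMulTop x hx a : N) = a • x := rfl

/-- The content ideal of a nonzero element of a projective module is nonzero. -/
lemma contentIdeal_ne_bot {R N : Type*} [CommRing R] [AddCommGroup N] [Module R N]
    [Module.Projective R N] (x : N) (hx : x ≠ 0) : contentIdeal R x ≠ ⊥ := by
  intro h
  have hmem := mem_contentIdeal_smul_top (R := R) x
  rw [h, Submodule.bot_smul, Submodule.mem_bot] at hmem
  exact hx hmem

include hL in
lemma invertible_N01_of_isLine : Module.Invertible R01 L.N01 := by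
  haveI := hL.inv0
  exact Module.Invertible.congr L.bc0.equiv

variable [IsDomain R0] [IsDomain R1] [IsDomain R01]

/-- The chart coordinate `t` is nonzero when the overlap ring is nontrivial. -/
lemma t_ne_zero : c.t ≠ 0 := by
  intro h
  have := c.away0
  have hu : IsUnit (algebraMap R0 R01 c.t) :=
    IsLocalization.map_units (M := Submonoid.powers c.t) R01 ⟨c.t, Submonoid.mem_powers _⟩
  rw [h, map_zero] at hu
  exact not_isUnit_zero hu

lemma s_ne_zero : c.s ≠ 0 := by
  intro h
  have := c.away1
  have hu : IsUnit (algebraMap R1 R01 c.s) :=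
    IsLocalization.map_units (M := Submonoid.powers c.s) R01 ⟨c.s, Submonoid.mem_powers _⟩
  rw [h, map_zero] at hu
  exact not_isUnit_zero hu

include c hL in
lemma r0_injective : Function.Injective L.r0 := by
  haveI := hL.inv0
  have := isLocalizedModule_r0 c L
  rw [injective_iff_map_eq_zero]
  intro x hx
  obtain ⟨⟨_, n, rfl⟩, hm⟩ := (IsLocalizedModule.eq_zero_iff (Submonoid.powers c.t) L.r0).1 hx
  have h2 : c.t ^ n • x = 0 := hm
  rcases smul_eq_zero.1 h2 with h | h
  · exact absurd h (pow_ne_zero _ (t_ne_zero c))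
  · exact h

include c hL in
lemma r1_injective : Function.Injective L.r1 := by
  haveI := hL.inv1
  have := isLocalizedModule_r1 c L
  rw [injective_iff_map_eq_zero]
  intro x hx
  obtain ⟨⟨_, n, rfl⟩, hm⟩ := (IsLocalizedModule.eq_zero_iff (Submonoid.powers c.s) L.r1).1 hx
  have h2 : c.s ^ n • x = 0 := hm
  rcases smul_eq_zero.1 h2 with h | h
  · exact absurd h (pow_ne_zero _ (s_ne_zero c))
  · exact h

include c hL in
/-- The two chart components of a global section of a line vanish together. -/
lemma section_fst_ne_zero (σ : L.H0) (hσ : σ ≠ 0) : σ.1.1 ≠ 0 := by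
  intro h0
  apply hσ
  have h1 : σ.1.2 = 0 := by
    apply r1_injective c L hL
    rw [← H0_compat, h0, map_zero, map_zero]
  exact Subtype.ext (Prod.ext h0 h1)

include c hL in
lemma section_snd_ne_zero (σ : L.H0) (hσ : σ ≠ 0) : σ.1.2 ≠ 0 := by
  intro h1
  apply section_fst_ne_zero c L hL σ hσ
  apply r0_injective c L hL
  rw [H0_compat, h1, map_zero, map_zero]

/-- **A nonzero section trivialises the twist by its divisor of zeros**: `O ≅ L(-div σ)`. -/
noncomputable def sectionIso (σ : L.H0) (h0 : σ.1.1 ≠ 0) :
    QC2.Iso (QC2.unit : QC2 A R0 R1 R01) (downTwist c L (sectionPair L hL σ)) :=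
  haveI := hL.inv0
  haveI := hL.inv1
  haveI := invertible_N01_of_isLine L hL
  have h01 : L.r0 σ.1.1 ≠ 0 := fun h => h0 (r0_injective c L hL (by rw [h, map_zero]))
  have h1 : σ.1.2 ≠ 0 := fun h => h01 (by rw [H0_compat, h, map_zero])
  { e0 := equivContentSMulTop σ.1.1 h0
    e1 := equivContentSMulTop σ.1.2 h1
    e01 := (equivContentSMulTop (L.r0 σ.1.1) h01).trans
      (LinearEquiv.ofEq _ _ (by
        rw [IdealPair.subPair_S01, sectionPair_I01]))
    comm0 := fun (a : R0) => by
      apply Subtype.ext
      change (algebraMap R0 R01 a) • L.r0 σ.1.1 = L.r0 (a • σ.1.1)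
      rw [map_smul, algebraMap_smul]
    comm1 := fun (a : R1) => by
      apply Subtype.ext
      change (algebraMap R1 R01 a) • L.r0 σ.1.1 = L.r1 (a • σ.1.2)
      rw [map_smul, algebraMap_smul, H0_compat] }

include c in
/-- The divisor of zeros of a nonzero section has nonzero ideals. -/
lemma sectionPair_ne_bot (σ : L.H0) (hσ : σ ≠ 0) :
    (sectionPair L hL σ).I0 ≠ ⊥ ∧ (sectionPair L hL σ).I1 ≠ ⊥ := by
  haveI := hL.inv0
  haveI := hL.inv1
  exact ⟨contentIdeal_ne_bot _ (section_fst_ne_zero c L hL σ hσ),
    contentIdeal_ne_bot _ (section_snd_ne_zero c L hL σ hσ)⟩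

end SectionPair

end Fermat.Agent.Jac.AbelJacobi73
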