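/-
Programme JAC, brick Q3a + (E), helper73: helper81's `AbelJacobi81.exists_onePointFamily_eval`
INSTANTIATED with the tautological point lines: there is `F1 : ClassFamily (chiCut D hc0) c` whose
value at a `k`-point `x` of the chart `U_j` is the class of `curveLine_j cc k (evalAlg_j cc x hx)`
(`= O(P0 - x)`) in `LinePic (cc.chartA k)`.  Direct input of `BridgeK84.isProductOfPoints_of_eval`.
-/
import Fermat.Agent.Jac.AbelJacobi73.LiftAt
import Fermat.Agent.Jac.AbelJacobi81.Final

set_option autoImplicit false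
set_option linter.unusedSectionVars false
set_option linter.style.haveILetI false

universe u

open CategoryTheory CategoryTheory.Limits AlgebraicGeometry AlgebraicGeometry.RelPicard
  NeronModelInfra GoodReductionJacobian TopologicalSpace Opposite TensorProduct

noncomputable section

namespace Fermat.Agent.Jac.AbelJacobi73

open scoped Fermat.Agent.Jac.BaseChange75
open TwoCoverGammaSetting BridgeCharts33 JSmooth85Alg ChiDict36 CutDeg36
open PointsBridge79 PointsBridge79Shell AbelJacobi81 JGroup85Law JGroup85Api JGroup85Pic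

variable {k : Type u} [Field k] [IsAlgClosed k] {C : Scheme.{u}} [IsIntegral C]
  {c : C ⟶ Spec (CommRingCat.of k)}
  {ε : SchemeHomOver (𝟙 (Spec (CommRingCat.of k))) c} {cc : CurveCharts c ε}
  (D : AffineDictionary cc) (hc0 : cc.chart0.FiniteProjOverLine)

/-- **Q3a + (E), instantiated**: the one-point family `F1 : x ↦ [O(P0 - x)]` of the curve and
its value at every `k`-point, as a class in `LinePic (cc.chartA k)`. -/
theorem exists_onePointFamily_eval_curve (hS : ClassesIsSheaf c ε)
    (Q : CutAlg cc D (chiCut D hc0)) :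
    ∃ F1 : ClassFamily (chiCut D hc0) c,
      (∀ (x : SchemeHomOver (𝟙 (Spec (CommRingCat.of k))) c) (hx : x.1 ⁻¹ᵁ cc.U0 = ⊤),
        lineClassPt D (chiCut D hc0) Q
            (clsAt F1 (CommRingCat.of k) x.1 (𝟙 (Spec (CommRingCat.of k))) x.2) =
          LinePic.mk (cc.chartA k) (curveLine0 cc k (CurveHyp80.evalAlg0 cc x hx))
            (isLine_curveLine0 cc k _)) ∧
      (∀ (x : SchemeHomOver (𝟙 (Spec (CommRingCat.of k))) c) (hx : x.1 ⁻¹ᵁ cc.U1 = ⊤),
        lineClassPt D (chiCut D hc0) Q
            (clsAt F1 (CommRingCat.of k) x.1 (𝟙 (Spec (CommRingCat.of k))) x.2) =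
          LinePic.mk (cc.chartA k) (curveLine1 cc k (CurveHyp80.evalAlg1 cc x hx))
            (isLine_curveLine1 cc k _)) := by
  obtain ⟨F1, h0, h1⟩ := exists_onePointFamily_eval D hc0 hS Q
    (tautLine0 cc) (isLine_curveLine0 cc _ _) (fun p => chi_curveLine0 cc _ _ p)
    (tautLine1 cc) (isLine_curveLine1 cc _ _) (fun p => chi_curveLine1 cc _ _ p)
    (curveLine0 cc cc.B01 (IsScalarTower.toAlgHom k cc.B0 cc.B01))
    (curveLine1 cc cc.B01 (IsScalarTower.toAlgHom k cc.B1 cc.B01))
    (liftData_tautLine0 cc cc.B01) (liftData_tautLine1 cc cc.B01)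
    ⟨by rw [curveLine0_eq_curveLine1_overlap]; exact LineOps39.isoRefl _⟩
  refine ⟨F1, ?_, ?_⟩
  · intro x hx
    exact h0 x hx (isLine_curveLine0 cc k _) (liftDataAt_tautLine0 cc _)
  · intro x hx
    exact h1 x hx (isLine_curveLine1 cc k _) (liftDataAt_tautLine1 cc _)

end Fermat.Agent.Jac.AbelJacobi73
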