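/-
Programme JAC, brick Q3 COMPLETE (helper73, assembling helper81 Final + helper84 BridgeK84Final +
helper85 eval + helper80 points + own point lines): `exists_F1_H41` produces the inputs `F1`, `g`,
`H` of `FinalWiring41.s25_of_four` unconditionally from a dictionary `D : AffineDictionary cc`.
-/
import Fermat.Agent.Jac.AbelJacobi73.LiftAt
import Fermat.Agent.Jac.AbelJacobi81.Final
import Fermat.Agent.Jac.BridgeK84Final
import Fermat.Agent.Jac.ClassesGlue86.Main

set_option autoImplicit false
set_option linter.unusedSectionVars false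
set_option linter.style.haveILetI false

universe u

open CategoryTheory CategoryTheory.Limits AlgebraicGeometry AlgebraicGeometry.RelPicard
  NeronModelInfra GoodReductionJacobian TopologicalSpace Opposite TensorProduct

noncomputable section

namespace Fermat.Agent.Jac.AbelJacobi73

open scoped Fermat.Agent.Jac.BaseChange75
open TwoCoverGammaSetting BridgeCharts33 JSmooth85Alg ChiDict36 CutDeg36
open PointsBridge79 PointsBridge79Shell AbelJacobi81 JGroup85Law JGroup85Api JGroup85Pic
  FinalWiring41 BridgeK84Final

variable {k : Type u} [Field k] [IsAlgClosed k] {C : Scheme.{u}} [IsIntegral C]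
  {c : C ⟶ Spec (CommRingCat.of k)}
  {ε : SchemeHomOver (𝟙 (Spec (CommRingCat.of k))) c} (cc : CurveCharts c ε)
  (D : AffineDictionary cc)

/-- **Q3 (inputs `F1`, `g`, `H` of `FinalWiring41.s25_of_four`)**: the one-point family of the
curve, and every class over `Spec k` in the cut is a product of `g = h¹(O)` of its values. -/
theorem exists_F1_H41 :
    ∃ F1 : ClassFamily (cut41 D) c,
      ∀ ξ : PClass (cut41 D) (𝟙 (Spec (CommRingCat.of k))),
        IsProductOfPoints (groupLaw41 D) F1 (genus41 cc) ξ := by
  have hS : ClassesIsSheaf c ε := ClassesGlue86.Main.classesIsSheaf (fun A _ _ => D.gamma_top A)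
  obtain ⟨F1, h0, h1⟩ := exists_onePointFamily_eval D
    (ChartFPL36.chart0_finiteProjOverLine cc) hS (Q41 cc D)
    (tautLine0 cc) (isLine_curveLine0 cc _ _) (fun p => chi_curveLine0 cc _ _ p)
    (tautLine1 cc) (isLine_curveLine1 cc _ _) (fun p => chi_curveLine1 cc _ _ p)
    (curveLine0 cc cc.B01 (IsScalarTower.toAlgHom k cc.B0 cc.B01))
    (curveLine1 cc cc.B01 (IsScalarTower.toAlgHom k cc.B1 cc.B01))
    (liftData_tautLine0 cc cc.B01) (liftData_tautLine1 cc cc.B01)
    ⟨by rw [curveLine0_eq_curveLine1_overlap]; exact LineOps39.isoRefl _⟩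
  exact ⟨F1, fun ξ => h41_of_eval cc D F1 h0 h1 ξ⟩

end Fermat.Agent.Jac.AbelJacobi73
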