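/-
Programme JAC, brick Q3a, helper73: the one-point (Abel-Jacobi) family `F1 : x ↦ [O(P0 - x)]` of
the curve, obtained by feeding the tautological point lines (`CurveLines.lean`) into helper81's
`AbelJacobi81.exists_onePointFamily`; its value at a field-valued point in the chart `U_i`
corresponds through the dictionary to `curveLine_i cc K (B_i → K)`.
-/
import Fermat.Agent.Jac.AbelJacobi73.CurveLines
import Fermat.Agent.Jac.AbelJacobi81.OnePointDict

set_option autoImplicit false
set_option linter.unusedSectionVars false
set_option linter.style.haveILetI false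

universe u

open CategoryTheory CategoryTheory.Limits AlgebraicGeometry AlgebraicGeometry.RelPicard
  NeronModelInfra GoodReductionJacobian TopologicalSpace Opposite TensorProduct

noncomputable section

namespace Fermat.Agent.Jac.AbelJacobi73

open scoped Fermat.Agent.Jac.BaseChange75
open TwoCoverGammaSetting BridgeCharts33 JSmooth85Alg ChiDict36 CutDeg36
open PointsBridge79 PointsBridge79Shell AbelJacobi81

variable {k : Type u} [Field k] [IsAlgClosed k] {C : Scheme.{u}} [IsIntegral C]
  {c : C ⟶ Spec (CommRingCat.of k)}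
  {ε : SchemeHomOver (𝟙 (Spec (CommRingCat.of k))) c} {cc : CurveCharts c ε}
  (D : AffineDictionary cc) (hc0 : cc.chart0.FiniteProjOverLine)

/-- **Q3a, instantiated**: the one-point family `F1` of the curve, `x ↦ [O(P0 - x)]`, with its
values at field-valued points described by the point lines `curveLine0/1`. -/
theorem exists_onePointFamily_curve (hS : ClassesIsSheaf c ε) :
    ∃ F1 : ClassFamily (chiCut D hc0) c,
      (∀ (K : Type u) [Field K] [Algebra k K] [Algebra cc.B0 K] [IsScalarTower k cc.B0 K]
        (x : SchemeHomOver (specStr (k := k) K) c)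
        (_ : (specOver (IsScalarTower.toAlgHom k cc.B0 K)).1 ≫ fromSpec0 cc = x.1),
        ∃ (N : RigidifiedLineBundle c ε (specStr (k := k) K))
          (hN : (chiCut D hc0).P (specStr (k := k) K) N),
          D.Corr K N.L (curveLine0 cc K (IsScalarTower.toAlgHom k cc.B0 K)) ∧
            clsAt F1 (CommRingCat.of K) x.1 (specStr (k := k) K) x.2 =
              PClass.mk (chiCut D hc0) (specStr (k := k) K) N hN) ∧
      (∀ (K : Type u) [Field K] [Algebra k K] [Algebra cc.B1 K] [IsScalarTower k cc.B1 K]
        (x : SchemeHomOver (specStr (k := k) K) c)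
        (_ : (specOver (IsScalarTower.toAlgHom k cc.B1 K)).1 ≫ fromSpec1 cc = x.1),
        ∃ (N : RigidifiedLineBundle c ε (specStr (k := k) K))
          (hN : (chiCut D hc0).P (specStr (k := k) K) N),
          D.Corr K N.L (curveLine1 cc K (IsScalarTower.toAlgHom k cc.B1 K)) ∧
            clsAt F1 (CommRingCat.of K) x.1 (specStr (k := k) K) x.2 =
              PClass.mk (chiCut D hc0) (specStr (k := k) K) N hN) := by
  obtain ⟨F1, h0, h1⟩ := exists_onePointFamily D hc0 hS
    (tautLine0 cc) (isLine_curveLine0 cc _ _) (fun p => chi_curveLine0 cc _ _ p)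
    (tautLine1 cc) (isLine_curveLine1 cc _ _) (fun p => chi_curveLine1 cc _ _ p)
    (curveLine0 cc cc.B01 (IsScalarTower.toAlgHom k cc.B0 cc.B01))
    (curveLine1 cc cc.B01 (IsScalarTower.toAlgHom k cc.B1 cc.B01))
    (liftData_tautLine0 cc cc.B01) (liftData_tautLine1 cc cc.B01)
    ⟨by rw [curveLine0_eq_curveLine1_overlap]; exact LineOps39.isoRefl _⟩
  refine ⟨F1, ?_, ?_⟩
  · intro K _ _ _ _ x hx
    exact h0 K x hx _ (liftData_tautLine0 cc K)
  · intro K _ _ _ _ x hx
    exact h1 K x hx _ (liftData_tautLine1 cc K)

end Fermat.Agent.Jac.AbelJacobi73
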