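/-
Programme JAC, helper73: S25 from the SINGLE remaining brick R2a (an algebraic chart package with
finite-type chart rings, for the standard family of the curve).  Everything else is instantiated:
`FiniteToLine80.nonempty_curveCharts`, `DictCore15.dictionary`, `AbelJacobi73.exists_F1_H41`,
`FinalWiring41.s25_of_four`.
-/
import Fermat.Agent.Jac.AbelJacobi73.H41
import Fermat.Agent.Jac.DictCore15BC
import Fermat.Agent.Jac.FiniteToLine80.Main

set_option autoImplicit false
universe u
open CategoryTheory CategoryTheory.Limits AlgebraicGeometry AlgebraicGeometry.RelPicard NeronModelInfra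
  GoodReductionJacobian
open AlgebraicGeometry AlgebraicGeometry.RelPicard

namespace Fermat.Agent.Jac.AbelJacobi73

/-- S25 from the single remaining brick R2a. -/
theorem s25_of_R2a
    (k : Type u) [Field k] [IsAlgClosed k] {C : Scheme.{u}} (c : C ⟶ Spec (CommRingCat.of k))
    [IsProper c] [SmoothOfRelativeDimension 1 c] [IsIntegral C]
    (ε : SchemeHomOver (𝟙 (Spec (CommRingCat.of k))) c)
    (hR2a : ∀ cc : CurveCharts c ε, ∃ pkgA : AlgChart76.AlgChartPackage (FamDict14.fam cc),
      ∀ i, Algebra.FiniteType k (pkgA.chart i).H) :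
    ∃ D : RelativePic0Designation k c,
      Nonempty (RepresentsRelSubPic c ε (algEquivZeroCut c ε) D) ∧
        Smooth D.toBase ∧ IsProper D.toBase ∧ GeometricallyConnected D.toBase := by
  obtain ⟨cc⟩ := FiniteToLine80.nonempty_curveCharts c ε
  obtain ⟨pkgA, hft⟩ := hR2a cc
  obtain ⟨F1, H⟩ := exists_F1_H41 cc (DictCore15.dictionary cc)
  exact FinalWiring41.s25_of_four cc (DictCore15.dictionary cc) pkgA hft F1 _ H

end Fermat.Agent.Jac.AbelJacobi73
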